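import Mathlib.Tactic.Ring
import Mathlib.Tactic.LinearCombination
import Mathlib.Algebra.Ring.Defs
import Fermat.Agent.S52.Defs

/-!
# S52, piece P4 (level-5 structure on the Klein family): data and polynomial identities

`E_u : y^2 = x^3 + 27 kH(u1^5,u2^5) x + 54 kT(u1^5,u2^5)`.
* `P = (sX, sY)`: a 5-torsion section whose coordinates are forms in `p = u1^5`, `q = u2^5` with
  coefficients in `Z[ζ, d]`, `d = 1/5`, `ζ` a root of the 5th cyclotomic polynomial;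
  `2 P = (sX, sY)` at `ζ^2`, and `(sX, sY)` at `ζ^4` is `-P`.
* `Q = (qX, qY)`: a 5-torsion section with INTEGER coefficients (forms of degree 10, 15 in `u`),
  `2 Q = (qX2, qY2)`, `2 (2 Q) = -Q`.
* `P(u) + Q(u) = Q(ζ^2 u1, ζ^3 u2)`  (slope `mL`).
All identities are polynomial identities modulo `ζ^4+ζ^3+ζ^2+ζ+1 = 0` and `5 d = 1`; the certificates
were generated by own exact arithmetic (helper4252, scripts in notes/S52/p4/).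
-/

set_option autoImplicit false

namespace Fermat.Agent.S52.TOR.H4252

open Fermat.Agent.S52

section Defs

variable {K : Type*} [CommRing K]

/-- x-coordinate of the section `P` (form of degree 2 in `p, q`). -/
def sX (d ζ p q : K) : K := 36 * d * ζ^3 * p^2 + 396 * d * ζ^3 * p * q - 36 * d * ζ^3 * q^2 + 36 * d * ζ^2 * p^2 + 396 * d * ζ^2 * p * q - 36 * d * ζ^2 * q^2 - 57 * d * p^2 + 198 * d * p * q - 93 * d * q^2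

/-- y-coordinate of the section `P` (form of degree 3 in `p, q`). -/
def sY (d ζ p q : K) : K := -108 * d * ζ^3 * p^3 - 1512 * d * ζ^3 * p^2 * q - 3456 * d * ζ^3 * p * q^2 + 324 * d * ζ^3 * q^3 - 324 * d * ζ^2 * p^3 - 3456 * d * ζ^2 * p^2 * q + 1512 * d * ζ^2 * p * q^2 - 108 * d * ζ^2 * q^3 - 432 * d * ζ * p^3 - 4968 * d * ζ * p^2 * q - 1944 * d * ζ * p * q^2 + 216 * d * ζ * q^3 - 216 * d * p^3 - 2484 * d * p^2 * q - 972 * d * p * q^2 + 108 * d * q^3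

/-- slope of the tangent at `P` (linear in `p, q`). -/
def sL (d ζ p q : K) : K := 24 * d * ζ^3 * p - 18 * d * ζ^3 * q + 18 * d * ζ^2 * p + 24 * d * ζ^2 * q + 42 * d * ζ * p + 6 * d * ζ * q + 21 * d * p + 3 * d * q

/-- cofactor: `sY * sG = -108 (p^2 + 11 p q - q^2)^2`. -/
def sG (ζ p q : K) : K := -7 * ζ^3 * p - ζ^3 * q + ζ^2 * p - 7 * ζ^2 * q - 6 * ζ * p - 8 * ζ * q - 3 * p - 4 * q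

/-- x-coordinate of the rational section `Q` (form of degree 10 in `u`). -/
def qX (u1 u2 : K) : K := 3 * u1^10 - 36 * u1^9 * u2 + 72 * u1^8 * u2^2 - 108 * u1^7 * u2^3 + 180 * u1^6 * u2^4 - 90 * u1^5 * u2^5 + 72 * u1^4 * u2^6 + 36 * u1^3 * u2^7 + 36 * u1^2 * u2^8 + 3 * u2^10

/-- y-coordinate of the rational section `Q` (form of degree 15 in `u`). -/
def qY (u1 u2 : K) : K := -108 * u1^14 * u2 + 432 * u1^13 * u2^2 - 972 * u1^12 * u2^3 + 1620 * u1^11 * u2^4 - 2700 * u1^10 * u2^5 + 3132 * u1^9 * u2^6 - 2268 * u1^8 * u2^7 + 648 * u1^7 * u2^8 - 540 * u1^6 * u2^9 - 432 * u1^4 * u2^11 + 108 * u1^3 * u2^12 - 108 * u1^2 * u2^13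

/-- x-coordinate of `2 Q`. -/
def qX2 (u1 u2 : K) : K := 3 * u1^10 + 36 * u1^8 * u2^2 - 36 * u1^7 * u2^3 + 72 * u1^6 * u2^4 + 90 * u1^5 * u2^5 + 180 * u1^4 * u2^6 + 108 * u1^3 * u2^7 + 72 * u1^2 * u2^8 + 36 * u1 * u2^9 + 3 * u2^10

/-- y-coordinate of `2 Q`. -/
def qY2 (u1 u2 : K) : K := 108 * u1^13 * u2^2 + 108 * u1^12 * u2^3 + 432 * u1^11 * u2^4 + 540 * u1^9 * u2^6 + 648 * u1^8 * u2^7 + 2268 * u1^7 * u2^8 + 3132 * u1^6 * u2^9 + 2700 * u1^5 * u2^10 + 1620 * u1^4 * u2^11 + 972 * u1^3 * u2^12 + 432 * u1^2 * u2^13 + 108 * u1 * u2^14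

/-- slope of the tangent at `Q`. -/
def qL1 (u1 u2 : K) : K := 3 * u1^5 - 12 * u1^4 * u2 + 6 * u1^3 * u2^2 - 18 * u1^2 * u2^3 - 6 * u1 * u2^4 - 3 * u2^5

/-- slope of the tangent at `2 Q`. -/
def qL2 (u1 u2 : K) : K := 3 * u1^5 - 6 * u1^4 * u2 + 18 * u1^3 * u2^2 + 6 * u1^2 * u2^3 + 12 * u1 * u2^4 + 3 * u2^5

/-- cofactor: `qY * qG = 108 kf^2`. -/
def qG (u1 u2 : K) : K := -u1^8 * u2 - 4 * u1^7 * u2^2 - 7 * u1^6 * u2^3 - 7 * u1^5 * u2^4 + 7 * u1^3 * u2^6 + 3 * u1^2 * u2^7 - u1 * u2^8 - u2^9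

/-- cofactor: `qY2 * qG2 = 108 kf^2`. -/
def qG2 (u1 u2 : K) : K := u1^9 - u1^8 * u2 - 3 * u1^7 * u2^2 + 7 * u1^6 * u2^3 - 7 * u1^4 * u2^5 + 7 * u1^3 * u2^6 - 4 * u1^2 * u2^7 + u1 * u2^8

/-- `qX (ζ^2 u1) (ζ^3 u2)` with the powers of `ζ` reduced (`ζ^5 = 1`). -/
def qXt (ζ u1 u2 : K) : K := 180 * ζ^4 * u1^6 * u2^4 - 108 * ζ^3 * u1^7 * u2^3 + 36 * ζ^3 * u1^2 * u2^8 + 72 * ζ^2 * u1^8 * u2^2 + 36 * ζ^2 * u1^3 * u2^7 - 36 * ζ * u1^9 * u2 + 72 * ζ * u1^4 * u2^6 + 3 * u1^10 - 90 * u1^5 * u2^5 + 3 * u2^10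

/-- `qY (ζ^2 u1) (ζ^3 u2)` with the powers of `ζ` reduced (`ζ^5 = 1`). -/
def qYt (ζ u1 u2 : K) : K := 1620 * ζ^4 * u1^11 * u2^4 - 540 * ζ^4 * u1^6 * u2^9 - 972 * ζ^3 * u1^12 * u2^3 + 648 * ζ^3 * u1^7 * u2^8 - 108 * ζ^3 * u1^2 * u2^13 + 432 * ζ^2 * u1^13 * u2^2 - 2268 * ζ^2 * u1^8 * u2^7 + 108 * ζ^2 * u1^3 * u2^12 - 108 * ζ * u1^14 * u2 + 3132 * ζ * u1^9 * u2^6 - 432 * ζ * u1^4 * u2^11 - 2700 * u1^10 * u2^5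

/-- slope of the chord through `P` and `Q`. -/
def mL (d ζ u1 u2 : K) : K := 6 * d * ζ^3 * u1^5 - 12 * d * ζ^3 * u2^5 + 12 * d * ζ^2 * u1^5 + 6 * d * ζ^2 * u2^5 + 18 * d * ζ * u1^5 - 6 * d * ζ * u2^5 + 9 * d * u1^5 - 3 * d * u2^5 + 6 * ζ^3 * u1^2 * u2^3 - 6 * ζ^2 * u1^3 * u2^2 + 6 * ζ * u1^4 * u2 - 6 * u1^4 * u2 + 6 * u1^3 * u2^2 - 6 * u1^2 * u2^3

/-- cofactor: `(qX - sX) * mG = 36 kf^2`. -/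
def mG (ζ u1 u2 : K) : K := ζ^3 * u1^12 * u2^2 + 5 * ζ^3 * u1^11 * u2^3 + 10 * ζ^3 * u1^10 * u2^4 + 10 * ζ^3 * u1^9 * u2^5 - 14 * ζ^3 * u1^7 * u2^7 - 10 * ζ^3 * u1^6 * u2^8 + 5 * ζ^3 * u1^5 * u2^9 + 5 * ζ^3 * u1^4 * u2^10 - ζ^3 * u1^2 * u2^12 + ζ^2 * u1^12 * u2^2 + 5 * ζ^2 * u1^11 * u2^3 + 10 * ζ^2 * u1^10 * u2^4 + 10 * ζ^2 * u1^9 * u2^5 - 14 * ζ^2 * u1^7 * u2^7 - 10 * ζ^2 * u1^6 * u2^8 + 5 * ζ^2 * u1^5 * u2^9 + 5 * ζ^2 * u1^4 * u2^10 - ζ^2 * u1^2 * u2^12 + 3 * u1^12 * u2^2 + 10 * u1^11 * u2^3 + 15 * u1^10 * u2^4 + 15 * u1^9 * u2^5 - 7 * u1^7 * u2^7 + 5 * u1^6 * u2^8 - 5 * u1^5 * u2^9 - 5 * u1^4 * u2^10 + 2 * u1^2 * u2^12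

end Defs

section Identities

variable {K : Type*} [CommRing K]

theorem zeta_sq_root {ζ : K} (hζ : ζ^4 + ζ^3 + ζ^2 + ζ + 1 = 0) :
    (ζ^2)^4 + (ζ^2)^3 + (ζ^2)^2 + ζ^2 + 1 = 0 := by
  linear_combination (ζ^4 - ζ^3 + ζ^2 - ζ + 1) * hζ

theorem zeta_pow_five {ζ : K} (hζ : ζ^4 + ζ^3 + ζ^2 + ζ + 1 = 0) : ζ^5 = 1 := by
  linear_combination (ζ - 1) * hζ

theorem sP_on {d ζ : K} (hd : 5 * d = 1) (hζ : ζ^4 + ζ^3 + ζ^2 + ζ + 1 = 0) (p q : K) :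
    sY d ζ p q ^ 2 = sX d ζ p q ^ 3 + 27 * kH p q * sX d ζ p q + 54 * kT p q := by
  unfold sX sY kH kT
  linear_combination (-46656 * d^3 * ζ^5 * p^6 - 1539648 * d^3 * ζ^5 * p^5 * q - 16796160 * d^3 * ζ^5 * p^4 * q^2 - 59019840 * d^3 * ζ^5 * p^3 * q^3 + 16796160 * d^3 * ζ^5 * p^2 * q^4 - 1539648 * d^3 * ζ^5 * p * q^5 + 46656 * d^3 * ζ^5 * q^6 - 93312 * d^3 * ζ^4 * p^6 - 3079296 * d^3 * ζ^4 * p^5 * q - 33592320 * d^3 * ζ^4 * p^4 * q^2 - 118039680 * d^3 * ζ^4 * p^3 * q^3 + 33592320 * d^3 * ζ^4 * p^2 * q^4 - 3079296 * d^3 * ζ^4 * p * q^5 + 93312 * d^3 * ζ^4 * q^6 + 314928 * d^3 * ζ^2 * p^6 + 7185024 * d^3 * ζ^2 * p^5 * q + 43390080 * d^3 * ζ^2 * p^4 * q^2 + 29509920 * d^3 * ζ^2 * p^3 * q^3 + 26593920 * d^3 * ζ^2 * p^2 * q^4 - 5645376 * d^3 * ζ^2 * p * q^5 + 268272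 * d^3 * ζ^2 * q^6 + 268272 * d^3 * ζ * p^6 + 5645376 * d^3 * ζ * p^5 * q + 26593920 * d^3 * ζ * p^4 * q^2 - 29509920 * d^3 * ζ * p^3 * q^3 + 43390080 * d^3 * ζ * p^2 * q^4 - 7185024 * d^3 * ζ * p * q^5 + 314928 * d^3 * ζ * q^6 - 268272 * d^3 * p^6 - 5645376 * d^3 * p^5 * q - 26593920 * d^3 * p^4 * q^2 + 29509920 * d^3 * p^3 * q^3 - 43390080 * d^3 * p^2 * q^4 + 7185024 * d^3 * p * q^5 - 314928 * d^3 * q^6 + 11664 * d^2 * ζ^2 * p^6 + 326592 * d^2 * ζ^2 * p^5 * q + 3032640 * d^2 * ζ^2 * p^4 * q^2 + 10380960 * d^2 * ζ^2 * p^3 * q^3 + 10964160 * d^2 * ζ^2 * p^2 * q^4 - 2239488 * d^2 * ζ^2 * p * q^5 + 104976 * d^2 * ζ^2 * q^6 + 58320 * d^2 * ζ * p^6 + 1399680 * d^2 * ζ * p^5 * q + 9331200 * d^2 * ζ * p^4 * q^2 + 8748000 * d^2 * ζ * p^3 * q^3 - 23328000 * d^2 * ζ * p^2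 * q^4 + 3965760 * d^2 * ζ * p * q^5 - 174960 * d^2 * ζ * q^6 + 128304 * d^2 * p^6 + 2892672 * d^2 * p^5 * q + 17029440 * d^2 * p^4 * q^2 + 10380960 * d^2 * p^3 * q^3 + 24960960 * d^2 * p^2 * q^4 - 4805568 * d^2 * p * q^5 + 221616 * d^2 * q^6) * hζ + (-133164 * d^2 * ζ^3 * p^6 - 1721412 * d^2 * ζ^3 * p^5 * q - 4320540 * d^2 * ζ^3 * p^4 * q^2 - 17427960 * d^2 * ζ^3 * p^3 * q^3 + 4320540 * d^2 * ζ^3 * p^2 * q^4 - 1721412 * d^2 * ζ^3 * p * q^5 + 133164 * d^2 * ζ^3 * q^6 - 133164 * d^2 * ζ^2 * p^6 - 1721412 * d^2 * ζ^2 * p^5 * q - 4320540 * d^2 * ζ^2 * p^4 * q^2 - 17427960 * d^2 * ζ^2 * p^3 * q^3 + 4320540 * d^2 * ζ^2 * p^2 * q^4 - 1721412 * d^2 * ζ^2 * p * q^5 + 133164 * d^2 * ζ^2 * q^6 + 90693 * d^2 * p^6 + 743094 * d^2 * p^5 * q + 6840855 * d^2 * p^4 * q^2 - 8713980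 * d^2 * p^3 * q^3 + 11161395 * d^2 * p^2 * q^4 - 2464506 * d^2 * p * q^5 + 223857 * d^2 * q^6 - 972 * d * ζ^3 * p^6 + 210924 * d * ζ^3 * p^5 * q + 1958580 * d * ζ^3 * p^4 * q^2 - 5725080 * d * ζ^3 * p^3 * q^3 - 1958580 * d * ζ^3 * p^2 * q^4 + 210924 * d * ζ^3 * p * q^5 + 972 * d * ζ^3 * q^6 - 972 * d * ζ^2 * p^6 + 210924 * d * ζ^2 * p^5 * q + 1958580 * d * ζ^2 * p^4 * q^2 - 5725080 * d * ζ^2 * p^3 * q^3 - 1958580 * d * ζ^2 * p^2 * q^4 + 210924 * d * ζ^2 * p * q^5 + 972 * d * ζ^2 * q^6 + 1809 * d * p^6 - 215298 * d * p^5 * q - 719685 * d * p^4 * q^2 - 2862540 * d * p^3 * q^3 - 2678265 * d * p^2 * q^4 + 426222 * d * p * q^5 + 2781 * d * q^6 + 54 * p^6 + 28188 * p^5 * q - 540270 * p^4 * q^2 - 540270 * p^2 * q^4 - 28188 * p * q^5 + 54 * q^6) * hd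

theorem sP_slope {d ζ : K} (hd : 5 * d = 1) (hζ : ζ^4 + ζ^3 + ζ^2 + ζ + 1 = 0) (p q : K) :
    3 * sX d ζ p q ^ 2 + 27 * kH p q = 2 * sY d ζ p q * sL d ζ p q := by
  unfold sX sY sL kH
  linear_combination (9072 * d^2 * ζ^2 * p^4 + 154224 * d^2 * ζ^2 * p^3 * q + 574128 * d^2 * ζ^2 * p^2 * q^2 - 225504 * d^2 * ζ^2 * p * q^3 + 15552 * d^2 * ζ^2 * q^4 + 18144 * d^2 * ζ * p^4 + 230688 * d^2 * ζ * p^3 * q + 351216 * d^2 * ζ * p^2 * q^2 + 268272 * d^2 * ζ * p * q^3 - 27216 * d^2 * ζ * q^4 + 18144 * d^2 * p^4 + 191808 * d^2 * p^3 * q - 128304 * d^2 * p^2 * q^2 - 263088 * d^2 * p * q^3 + 24624 * d^2 * q^4) * hζ + (135 * d * p^4 - 30780 * d * p^3 * q + 66690 * d * p^2 * q^2 + 30780 * d * p * q^3 + 135 * d * q^4 + 27 * p^4 - 6156 * p^3 * q + 13338 * p^2 * q^2 + 6156 *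 p * q^3 + 27 * q^4) * hd

theorem sP_dblX {d ζ : K} (hd : 5 * d = 1) (hζ : ζ^4 + ζ^3 + ζ^2 + ζ + 1 = 0) (p q : K) :
    sX d (ζ^2) p q = sL d ζ p q ^ 2 - 2 * sX d ζ p q := by
  unfold sX sL
  linear_combination (-576 * d^2 * ζ^2 * p^2 + 864 * d^2 * ζ^2 * p * q - 324 * d^2 * ζ^2 * q^2 - 288 * d^2 * ζ * p^2 - 1368 * d^2 * ζ * p * q + 1188 * d^2 * ζ * q^2 - 1476 * d^2 * p^2 + 864 * d^2 * p * q - 1224 * d^2 * q^2 + 36 * d * ζ^2 * p^2 + 396 * d * ζ^2 * p * q - 36 * d * ζ^2 * q^2 - 36 * d * ζ * p^2 - 396 * d * ζ * p * q + 36 * d * ζ * q^2 + 36 * d * p^2 + 396 * d * p * q - 36 * d * q^2) * hζ + (-36 * d * ζ^3 * p^2 - 396 * d * ζ^3 * p * q + 36 * d * ζ^3 * q^2 - 36 * d * ζ^2 * p^2 - 396 * d * ζ^2 * p * q + 36 * d * ζ^2 * q^2 + 207 * d * p^2 - 198 * d * p * q + 243 * d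 * q^2) * hd

theorem sP_dblY {d ζ : K} (hd : 5 * d = 1) (hζ : ζ^4 + ζ^3 + ζ^2 + ζ + 1 = 0) (p q : K) :
    sY d (ζ^2) p q = sL d ζ p q * (sX d ζ p q - sX d (ζ^2) p q) - sY d ζ p q := by
  unfold sX sY sL
  linear_combination (864 * d^2 * ζ^5 * p^3 + 8856 * d^2 * ζ^5 * p^2 * q - 7992 * d^2 * ζ^5 * p * q^2 + 648 * d^2 * ζ^5 * q^3 - 216 * d^2 * ζ^4 * p^3 - 864 * d^2 * ζ^4 * p^2 * q + 16848 * d^2 * ζ^4 * p * q^2 - 1512 * d^2 * ζ^4 * q^3 + 1728 * d^2 * ζ^3 * p^3 + 17712 * d^2 * ζ^3 * p^2 * q - 15984 * d^2 * ζ^3 * p * q^2 + 1296 * d^2 * ζ^3 * q^3 - 1836 * d^2 * ζ^2 * p^3 - 18144 * d^2 * ζ^2 * p^2 * q + 24408 * d^2 * ζ^2 * p * q^2 - 2052 * d^2 * ζ^2 * q^3 - 540 * d^2 * ζ * p^3 - 7560 * d^2 * ζ * p^2 * q - 17280 * d^2 * ζ * p * q^2 + 1620 * d^2 * ζ * q^3 - 540 * d^2 *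 p^3 - 7560 * d^2 * p^2 * q - 17280 * d^2 * p * q^2 + 1620 * d^2 * q^3 - 108 * d * ζ^2 * p^3 - 1512 * d * ζ^2 * p^2 * q - 3456 * d * ζ^2 * p * q^2 + 324 * d * ζ^2 * q^3 + 108 * d * ζ * p^3 + 1512 * d * ζ * p^2 * q + 3456 * d * ζ * p * q^2 - 324 * d * ζ * q^3 - 324 * d * p^3 - 3456 * d * p^2 * q + 1512 * d * p * q^2 - 108 * d * q^3) * hζ + (-216 * d * ζ^3 * p^3 - 1944 * d * ζ^3 * p^2 * q + 4968 * d * ζ^3 * p * q^2 - 432 * d * ζ^3 * q^3 + 432 * d * ζ^2 * p^3 + 4968 * d * ζ^2 * p^2 * q + 1944 * d * ζ^2 * p * q^2 - 216 * d * ζ^2 * q^3 + 216 * d * ζ * p^3 + 3024 * d * ζ * p^2 * q + 6912 * d * ζ * p * q^2 - 648 * d * ζ * q^3 + 108 * d * p^3 + 1512 * d * p^2 * q + 3456 * d * p * q^2 - 324 * d * q^3) * hd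

theorem sX_pow_four {d ζ : K} (hζ : ζ^4 + ζ^3 + ζ^2 + ζ + 1 = 0) (p q : K) :
    sX d ((ζ^2)^2) p q = sX d ζ p q := by
  unfold sX
  linear_combination (36 * d * ζ^8 * p^2 + 396 * d * ζ^8 * p * q - 36 * d * ζ^8 * q^2 - 36 * d * ζ^7 * p^2 - 396 * d * ζ^7 * p * q + 36 * d * ζ^7 * q^2 + 36 * d * ζ^4 * p^2 + 396 * d * ζ^4 * p * q - 36 * d * ζ^4 * q^2 - 36 * d * ζ^2 * p^2 - 396 * d * ζ^2 * p * q + 36 * d * ζ^2 * q^2) * hζ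

theorem sY_pow_four {d ζ : K} (hζ : ζ^4 + ζ^3 + ζ^2 + ζ + 1 = 0) (p q : K) :
    sY d ((ζ^2)^2) p q = - sY d ζ p q := by
  unfold sY
  linear_combination (-108 * d * ζ^8 * p^3 - 1512 * d * ζ^8 * p^2 * q - 3456 * d * ζ^8 * p * q^2 + 324 * d * ζ^8 * q^3 + 108 * d * ζ^7 * p^3 + 1512 * d * ζ^7 * p^2 * q + 3456 * d * ζ^7 * p * q^2 - 324 * d * ζ^7 * q^3 - 324 * d * ζ^4 * p^3 - 3456 * d * ζ^4 * p^2 * q + 1512 * d * ζ^4 * p * q^2 - 108 * d * ζ^4 * q^3 + 216 * d * ζ^3 * p^3 + 1944 * d * ζ^3 * p^2 * q - 4968 * d * ζ^3 * p * q^2 + 432 * d * ζ^3 * q^3 + 108 * d * ζ^2 * p^3 + 1512 * d * ζ^2 * p^2 * q + 3456 * d * ζ^2 * p * q^2 - 324 * d * ζ^2 * q^3 - 432 * d * p^3 - 4968 * d * p^2 * q - 1944 * d * p * q^2 + 216 * d * q^3) * hζ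

theorem sY_mul_sG {d ζ : K} (hd : 5 * d = 1) (hζ : ζ^4 + ζ^3 + ζ^2 + ζ + 1 = 0) (p q : K) :
    sY d ζ p q * sG ζ p q = -108 * (p^2 + 11 * p * q - q^2)^2 := by
  unfold sY sG
  linear_combination (756 * d * ζ^2 * p^4 + 10692 * d * ζ^2 * p^3 * q + 25704 * d * ζ^2 * p^2 * q^2 + 1188 * d * ζ^2 * p * q^3 - 324 * d * ζ^2 * q^4 + 1404 * d * ζ * p^4 + 13068 * d * ζ * p^3 * q - 25704 * d * ζ * p^2 * q^2 + 22572 * d * ζ * p * q^3 - 1836 * d * ζ * q^4 + 1188 * d * p^4 + 20196 * d * p^3 * q + 77112 * d * p^2 * q^2 - 8316 * d * p * q^3 + 108 * d * q^4) * hζ + (-108 * p^4 - 2376 * p^3 * q - 12852 * p^2 * q^2 + 2376 * p * q^3 - 108 * q^4) * hd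

theorem qQ_on (u1 u2 : K) :
    qY u1 u2 ^ 2 = qX u1 u2 ^ 3 + 27 * kH (u1^5) (u2^5) * qX u1 u2 + 54 * kT (u1^5) (u2^5) := by
  unfold qX qY kH kT
  ring

theorem qQ2_on (u1 u2 : K) :
    qY2 u1 u2 ^ 2 = qX2 u1 u2 ^ 3 + 27 * kH (u1^5) (u2^5) * qX2 u1 u2 + 54 * kT (u1^5) (u2^5) := by
  unfold qX2 qY2 kH kT
  ring

theorem qQ_slope (u1 u2 : K) :
    3 * qX u1 u2 ^ 2 + 27 * kH (u1^5) (u2^5) = 2 * qY u1 u2 * qL1 u1 u2 := by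
  unfold qX qY qL1 kH
  ring

theorem qQ_dblX (u1 u2 : K) :
    qX2 u1 u2 = qL1 u1 u2 ^ 2 - 2 * qX u1 u2 := by
  unfold qX qX2 qL1
  ring

theorem qQ_dblY (u1 u2 : K) :
    qY2 u1 u2 = qL1 u1 u2 * (qX u1 u2 - qX2 u1 u2) - qY u1 u2 := by
  unfold qX qY qX2 qY2 qL1
  ring

theorem qQ2_slope (u1 u2 : K) :
    3 * qX2 u1 u2 ^ 2 + 27 * kH (u1^5) (u2^5) = 2 * qY2 u1 u2 * qL2 u1 u2 := by
  unfold qX2 qY2 qL2 kH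
  ring

theorem qQ2_dblX (u1 u2 : K) :
    qX u1 u2 = qL2 u1 u2 ^ 2 - 2 * qX2 u1 u2 := by
  unfold qX qX2 qL2
  ring

theorem qQ2_dblY (u1 u2 : K) :
    - qY u1 u2 = qL2 u1 u2 * (qX2 u1 u2 - qX u1 u2) - qY2 u1 u2 := by
  unfold qX qY qX2 qY2 qL2
  ring

theorem qY_mul_qG (u1 u2 : K) :
    qY u1 u2 * qG u1 u2 = 108 * kf u1 u2 ^ 2 := by
  unfold qY qG kf
  ring

theorem qY2_mul_qG2 (u1 u2 : K) :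
    qY2 u1 u2 * qG2 u1 u2 = 108 * kf u1 u2 ^ 2 := by
  unfold qY2 qG2 kf
  ring

theorem mix_slope {d ζ : K} (hd : 5 * d = 1) (hζ : ζ^4 + ζ^3 + ζ^2 + ζ + 1 = 0) (u1 u2 : K) :
    sY d ζ (u1^5) (u2^5) - qY u1 u2 = mL d ζ u1 u2 * (sX d ζ (u1^5) (u2^5) - qX u1 u2) := by
  unfold sX sY qX qY mL
  linear_combination (-216 * d^2 * ζ^2 * u1^15 - 1944 * d^2 * ζ^2 * u1^10 * u2^5 + 4968 * d^2 * ζ^2 * u1^5 * u2^10 - 432 * d^2 * ζ^2 * u2^15 - 432 * d^2 * ζ * u1^15 - 4968 * d^2 * ζ * u1^10 * u2^5 - 1944 * d^2 * ζ * u1^5 * u2^10 + 216 * d^2 * ζ * u2^15 - 432 * d^2 * u1^15 - 4968 * d^2 * u1^10 * u2^5 - 1944 * d^2 * u1^5 * u2^10 + 216 * d^2 * u2^15 - 216 * d * ζ^2 * u1^12 * u2^3 - 2376 * d * ζ^2 * u1^7 * u2^8 + 216 * d * ζ^2 * u1^2 * u2^13 + 216 * d * ζ * u1^13 * u2^2 + 2376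 * d * ζ * u1^8 * u2^7 - 216 * d * ζ * u1^3 * u2^12 - 216 * d * u1^14 * u2 + 216 * d * u1^12 * u2^3 - 2376 * d * u1^9 * u2^6 + 2376 * d * u1^7 * u2^8 + 216 * d * u1^4 * u2^11 - 216 * d * u1^2 * u2^13) * hζ + (90 * d * ζ^3 * u1^15 - 72 * d * ζ^3 * u1^10 * u2^5 + 1278 * d * ζ^3 * u1^5 * u2^10 - 288 * d * ζ^3 * u2^15 + 288 * d * ζ^2 * u1^15 + 1278 * d * ζ^2 * u1^10 * u2^5 + 72 * d * ζ^2 * u1^5 * u2^10 + 90 * d * ζ^2 * u2^15 + 378 * d * ζ * u1^15 + 1206 * d * ζ * u1^10 * u2^5 + 1350 * d * ζ * u1^5 * u2^10 - 198 * d * ζ * u2^15 + 189 * d * u1^15 + 603 * d * u1^10 * u2^5 + 675 * d * u1^5 * u2^10 - 99 * d * u2^15 - 18 * ζ^3 * u1^12 * u2^3 + 216 * ζ^3 * u1^11 * u2^4 - 432 * ζ^3 * u1^10 * u2^5 + 648 * ζ^3 * u1^9 * u2^6 - 1080 * ζ^3 * u1^8 * u2^7 + 540 * ζ^3 * u1^7 * u2^8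 - 432 * ζ^3 * u1^6 * u2^9 - 216 * ζ^3 * u1^5 * u2^10 - 216 * ζ^3 * u1^4 * u2^11 - 18 * ζ^3 * u1^2 * u2^13 + 18 * ζ^2 * u1^13 * u2^2 - 216 * ζ^2 * u1^12 * u2^3 + 432 * ζ^2 * u1^11 * u2^4 - 648 * ζ^2 * u1^10 * u2^5 + 1080 * ζ^2 * u1^9 * u2^6 - 540 * ζ^2 * u1^8 * u2^7 + 432 * ζ^2 * u1^7 * u2^8 + 216 * ζ^2 * u1^6 * u2^9 + 216 * ζ^2 * u1^5 * u2^10 + 18 * ζ^2 * u1^3 * u2^12 - 18 * ζ * u1^14 * u2 + 216 * ζ * u1^13 * u2^2 - 432 * ζ * u1^12 * u2^3 + 648 * ζ * u1^11 * u2^4 - 1080 * ζ * u1^10 * u2^5 + 540 * ζ * u1^9 * u2^6 - 432 * ζ * u1^8 * u2^7 - 216 * ζ * u1^7 * u2^8 - 216 * ζ * u1^6 * u2^9 - 18 * ζ * u1^4 * u2^11 - 90 * u1^14 * u2 + 198 * u1^13 * u2^2 - 306 * u1^12 * u2^3 + 324 * u1^11 * u2^4 - 540 * u1^10 * u2^5 + 864 * u1^9 * u2^6 - 216 * u1^8 * u2^7 - 108 * u1^7 *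 u2^8 - 108 * u1^6 * u2^9 - 198 * u1^4 * u2^11 + 90 * u1^3 * u2^12 - 90 * u1^2 * u2^13) * hd

theorem qX_twist {ζ : K} (hζ : ζ^4 + ζ^3 + ζ^2 + ζ + 1 = 0) (u1 u2 : K) :
    qX (ζ^2 * u1) (ζ^3 * u2) = qXt ζ u1 u2 := by
  have h5 := zeta_pow_five hζ
  unfold qX qXt
  linear_combination (3 * ζ^25 * u2^10 + 36 * ζ^23 * u1^2 * u2^8 + 36 * ζ^22 * u1^3 * u2^7 + 72 * ζ^21 * u1^4 * u2^6 - 90 * ζ^20 * u1^5 * u2^5 + 3 * ζ^20 * u2^10 + 180 * ζ^19 * u1^6 * u2^4 - 108 * ζ^18 * u1^7 * u2^3 + 36 * ζ^18 * u1^2 * u2^8 + 72 * ζ^17 * u1^8 * u2^2 + 36 * ζ^17 * u1^3 * u2^7 - 36 * ζ^16 * u1^9 * u2 + 72 * ζ^16 * u1^4 * u2^6 + 3 * ζ^15 * u1^10 - 90 * ζ^15 * u1^5 * u2^5 + 3 * ζ^15 * u2^10 + 180 * ζ^14 * u1^6 * u2^4 - 108 * ζ^13 * u1^7 * u2^3 + 36 * ζ^13 * u1^2 * u2^8 + 72 * ζ^12 * u1^8 *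 u2^2 + 36 * ζ^12 * u1^3 * u2^7 - 36 * ζ^11 * u1^9 * u2 + 72 * ζ^11 * u1^4 * u2^6 + 3 * ζ^10 * u1^10 - 90 * ζ^10 * u1^5 * u2^5 + 3 * ζ^10 * u2^10 + 180 * ζ^9 * u1^6 * u2^4 - 108 * ζ^8 * u1^7 * u2^3 + 36 * ζ^8 * u1^2 * u2^8 + 72 * ζ^7 * u1^8 * u2^2 + 36 * ζ^7 * u1^3 * u2^7 - 36 * ζ^6 * u1^9 * u2 + 72 * ζ^6 * u1^4 * u2^6 + 3 * ζ^5 * u1^10 - 90 * ζ^5 * u1^5 * u2^5 + 3 * ζ^5 * u2^10 + 180 * ζ^4 * u1^6 * u2^4 - 108 * ζ^3 * u1^7 * u2^3 + 36 * ζ^3 * u1^2 * u2^8 + 72 * ζ^2 * u1^8 * u2^2 + 36 * ζ^2 * u1^3 * u2^7 - 36 * ζ * u1^9 * u2 + 72 * ζ * u1^4 * u2^6 + 3 * u1^10 - 90 * u1^5 * u2^5 + 3 * u2^10) * h5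

theorem qY_twist {ζ : K} (hζ : ζ^4 + ζ^3 + ζ^2 + ζ + 1 = 0) (u1 u2 : K) :
    qY (ζ^2 * u1) (ζ^3 * u2) = qYt ζ u1 u2 := by
  have h5 := zeta_pow_five hζ
  unfold qY qYt
  linear_combination (-108 * ζ^38 * u1^2 * u2^13 + 108 * ζ^37 * u1^3 * u2^12 - 432 * ζ^36 * u1^4 * u2^11 - 540 * ζ^34 * u1^6 * u2^9 + 648 * ζ^33 * u1^7 * u2^8 - 108 * ζ^33 * u1^2 * u2^13 - 2268 * ζ^32 * u1^8 * u2^7 + 108 * ζ^32 * u1^3 * u2^12 + 3132 * ζ^31 * u1^9 * u2^6 - 432 * ζ^31 * u1^4 * u2^11 - 2700 * ζ^30 * u1^10 * u2^5 + 1620 * ζ^29 * u1^11 * u2^4 - 540 * ζ^29 * u1^6 * u2^9 - 972 * ζ^28 * u1^12 * u2^3 + 648 * ζ^28 * u1^7 * u2^8 - 108 * ζ^28 * u1^2 * u2^13 + 432 * ζ^27 * u1^13 * u2^2 - 2268 * ζ^27 * u1^8 * u2^7 + 108 * ζ^27 * u1^3 * u2^12 - 108 * ζ^26 * u1^14 * u2 + 3132 * ζ^26 * u1^9 *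 u2^6 - 432 * ζ^26 * u1^4 * u2^11 - 2700 * ζ^25 * u1^10 * u2^5 + 1620 * ζ^24 * u1^11 * u2^4 - 540 * ζ^24 * u1^6 * u2^9 - 972 * ζ^23 * u1^12 * u2^3 + 648 * ζ^23 * u1^7 * u2^8 - 108 * ζ^23 * u1^2 * u2^13 + 432 * ζ^22 * u1^13 * u2^2 - 2268 * ζ^22 * u1^8 * u2^7 + 108 * ζ^22 * u1^3 * u2^12 - 108 * ζ^21 * u1^14 * u2 + 3132 * ζ^21 * u1^9 * u2^6 - 432 * ζ^21 * u1^4 * u2^11 - 2700 * ζ^20 * u1^10 * u2^5 + 1620 * ζ^19 * u1^11 * u2^4 - 540 * ζ^19 * u1^6 * u2^9 - 972 * ζ^18 * u1^12 * u2^3 + 648 * ζ^18 * u1^7 * u2^8 - 108 * ζ^18 * u1^2 * u2^13 + 432 * ζ^17 * u1^13 * u2^2 - 2268 * ζ^17 * u1^8 * u2^7 + 108 * ζ^17 * u1^3 * u2^12 - 108 * ζ^16 * u1^14 * u2 + 3132 * ζ^16 * u1^9 * u2^6 - 432 * ζ^16 * u1^4 * u2^11 - 2700 * ζ^15 * u1^10 * u2^5 + 1620 * ζ^14 * u1^11 * u2^4 - 540 * ζ^14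 * u1^6 * u2^9 - 972 * ζ^13 * u1^12 * u2^3 + 648 * ζ^13 * u1^7 * u2^8 - 108 * ζ^13 * u1^2 * u2^13 + 432 * ζ^12 * u1^13 * u2^2 - 2268 * ζ^12 * u1^8 * u2^7 + 108 * ζ^12 * u1^3 * u2^12 - 108 * ζ^11 * u1^14 * u2 + 3132 * ζ^11 * u1^9 * u2^6 - 432 * ζ^11 * u1^4 * u2^11 - 2700 * ζ^10 * u1^10 * u2^5 + 1620 * ζ^9 * u1^11 * u2^4 - 540 * ζ^9 * u1^6 * u2^9 - 972 * ζ^8 * u1^12 * u2^3 + 648 * ζ^8 * u1^7 * u2^8 - 108 * ζ^8 * u1^2 * u2^13 + 432 * ζ^7 * u1^13 * u2^2 - 2268 * ζ^7 * u1^8 * u2^7 + 108 * ζ^7 * u1^3 * u2^12 - 108 * ζ^6 * u1^14 * u2 + 3132 * ζ^6 * u1^9 * u2^6 - 432 * ζ^6 * u1^4 * u2^11 - 2700 * ζ^5 * u1^10 * u2^5 + 1620 * ζ^4 * u1^11 * u2^4 - 540 * ζ^4 * u1^6 * u2^9 - 972 * ζ^3 * u1^12 * u2^3 + 648 * ζ^3 * u1^7 * u2^8 - 108 * ζ^3 * u1^2 * u2^13 + 432 * ζ^2 * u1^13 *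 u2^2 - 2268 * ζ^2 * u1^8 * u2^7 + 108 * ζ^2 * u1^3 * u2^12 - 108 * ζ * u1^14 * u2 + 3132 * ζ * u1^9 * u2^6 - 432 * ζ * u1^4 * u2^11 - 2700 * u1^10 * u2^5) * h5

theorem mix_addX {d ζ : K} (hd : 5 * d = 1) (hζ : ζ^4 + ζ^3 + ζ^2 + ζ + 1 = 0) (u1 u2 : K) :
    qXt ζ u1 u2 = mL d ζ u1 u2 ^ 2 - sX d ζ (u1^5) (u2^5) - qX u1 u2 := by
  unfold sX qX qXt mL
  linear_combination (-36 * d^2 * ζ^2 * u1^10 + 144 * d^2 * ζ^2 * u1^5 * u2^5 - 144 * d^2 * ζ^2 * u2^10 - 108 * d^2 * ζ * u1^10 + 72 * d^2 * ζ * u1^5 * u2^5 + 288 * d^2 * ζ * u2^10 - 216 * d^2 * u1^10 + 144 * d^2 * u1^5 * u2^5 - 324 * d^2 * u2^10 - 72 * d * ζ^2 * u1^7 * u2^3 + 144 * d * ζ^2 * u1^2 * u2^8 + 72 * d * ζ * u1^8 * u2^2 - 72 * d * ζ * u1^7 * u2^3 - 144 * d * ζ * u1^3 * u2^7 - 216 * d * ζ * u1^2 * u2^8 - 72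 * d * u1^9 * u2 + 72 * d * u1^8 * u2^2 - 72 * d * u1^7 * u2^3 + 144 * d * u1^4 * u2^6 + 216 * d * u1^3 * u2^7 + 144 * d * u1^2 * u2^8 - 36 * ζ^2 * u1^4 * u2^6 + 72 * ζ * u1^5 * u2^5 + 36 * ζ * u1^4 * u2^6 + 72 * u1^6 * u2^4 - 72 * u1^5 * u2^5) * hζ + (-36 * d * ζ^3 * u1^10 - 36 * d * ζ^3 * u1^5 * u2^5 + 36 * d * ζ^3 * u2^10 - 36 * d * ζ^2 * u1^10 - 36 * d * ζ^2 * u1^5 * u2^5 + 36 * d * ζ^2 * u2^10 + 27 * d * u1^10 - 18 * d * u1^5 * u2^5 + 63 * d * u2^10 + 36 * ζ^3 * u1^7 * u2^3 + 72 * ζ^3 * u1^5 * u2^5 - 72 * ζ^3 * u1^4 * u2^6 - 36 * ζ^3 * u1^2 * u2^8 - 36 * ζ^2 * u1^8 * u2^2 + 72 * ζ^2 * u1^7 * u2^3 + 72 * ζ^2 * u1^5 * u2^5 - 36 * ζ^2 * u1^3 * u2^7 + 36 * ζ * u1^9 * u2 - 72 * ζ * u1^8 * u2^2 + 72 * ζ * u1^7 * u2^3 - 36 * ζ * u1^4 * u2^6 - 6 * u1^10 + 36 * u1^9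 * u2 - 36 * u1^8 * u2^2 + 36 * u1^7 * u2^3 + 36 * u1^5 * u2^5 - 36 * u1^4 * u2^6 - 36 * u1^3 * u2^7 - 36 * u1^2 * u2^8 - 6 * u2^10) * hd

theorem mix_addY {d ζ : K} (hd : 5 * d = 1) (hζ : ζ^4 + ζ^3 + ζ^2 + ζ + 1 = 0) (u1 u2 : K) :
    qYt ζ u1 u2 = mL d ζ u1 u2 * (sX d ζ (u1^5) (u2^5) - qXt ζ u1 u2) - sY d ζ (u1^5) (u2^5) := by
  unfold sX sY qXt qYt mL
  linear_combination (-216 * d^2 * ζ^2 * u1^15 - 1944 * d^2 * ζ^2 * u1^10 * u2^5 + 4968 * d^2 * ζ^2 * u1^5 * u2^10 - 432 * d^2 * ζ^2 * u2^15 - 432 * d^2 * ζ * u1^15 - 4968 * d^2 * ζ * u1^10 * u2^5 - 1944 * d^2 * ζ * u1^5 * u2^10 + 216 * d^2 * ζ * u2^15 - 432 * d^2 * u1^15 - 4968 * d^2 * u1^10 * u2^5 - 1944 * d^2 * u1^5 * u2^10 + 216 * d^2 * u2^15 + 1080 * d * ζ^3 * u1^11 * u2^4 - 2160 * d * ζ^3 * u1^6 * u2^9 -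 864 * d * ζ^2 * u1^12 * u2^3 + 1080 * d * ζ^2 * u1^11 * u2^4 - 864 * d * ζ^2 * u1^7 * u2^8 + 3240 * d * ζ^2 * u1^6 * u2^9 - 216 * d * ζ^2 * u1^2 * u2^13 + 648 * d * ζ * u1^13 * u2^2 - 648 * d * ζ * u1^12 * u2^3 + 1080 * d * ζ * u1^11 * u2^4 + 1728 * d * ζ * u1^8 * u2^7 - 1728 * d * ζ * u1^7 * u2^8 - 2160 * d * ζ * u1^6 * u2^9 - 648 * d * ζ * u1^3 * u2^12 + 648 * d * ζ * u1^2 * u2^13 - 432 * d * u1^14 * u2 + 432 * d * u1^13 * u2^2 - 432 * d * u1^12 * u2^3 - 1620 * d * u1^11 * u2^4 - 1512 * d * u1^9 * u2^6 + 1512 * d * u1^8 * u2^7 + 3888 * d * u1^7 * u2^8 + 540 * d * u1^6 * u2^9 - 648 * d * u1^4 * u2^11 + 648 * d * u1^3 * u2^12 - 648 * d * u1^2 * u2^13 + 1080 * ζ^3 * u1^8 * u2^7 - 1728 * ζ^2 * u1^9 * u2^6 - 1080 * ζ^2 * u1^8 * u2^7 + 216 * ζ^2 * u1^4 * u2^11 + 2160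 * ζ * u1^10 * u2^5 + 1728 * ζ * u1^9 * u2^6 - 216 * ζ * u1^4 * u2^11 + 324 * u1^11 * u2^4 - 3240 * u1^10 * u2^5 + 1080 * u1^9 * u2^6 - 1080 * u1^8 * u2^7 - 108 * u1^6 * u2^9) * hζ + (90 * d * ζ^3 * u1^15 - 72 * d * ζ^3 * u1^10 * u2^5 + 1278 * d * ζ^3 * u1^5 * u2^10 - 288 * d * ζ^3 * u2^15 + 288 * d * ζ^2 * u1^15 + 1278 * d * ζ^2 * u1^10 * u2^5 + 72 * d * ζ^2 * u1^5 * u2^10 + 90 * d * ζ^2 * u2^15 + 378 * d * ζ * u1^15 + 1206 * d * ζ * u1^10 * u2^5 + 1350 * d * ζ * u1^5 * u2^10 - 198 * d * ζ * u2^15 + 189 * d * u1^15 + 603 * d * u1^10 * u2^5 + 675 * d * u1^5 * u2^10 - 99 * d * u2^15 + 306 * ζ^3 * u1^12 * u2^3 - 324 * ζ^3 * u1^11 * u2^4 - 432 * ζ^3 * u1^10 * u2^5 + 432 * ζ^3 * u1^9 * u2^6 - 1080 * ζ^3 * u1^8 * u2^7 + 108 * ζ^3 * u1^7 * u2^8 + 108 * ζ^3 * u1^6 * u2^9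 - 216 * ζ^3 * u1^5 * u2^10 + 216 * ζ^3 * u1^4 * u2^11 + 90 * ζ^3 * u1^2 * u2^13 - 198 * ζ^2 * u1^13 * u2^2 + 432 * ζ^2 * u1^12 * u2^3 - 108 * ζ^2 * u1^11 * u2^4 - 648 * ζ^2 * u1^10 * u2^5 + 1080 * ζ^2 * u1^9 * u2^6 - 864 * ζ^2 * u1^8 * u2^7 + 216 * ζ^2 * u1^7 * u2^8 - 324 * ζ^2 * u1^6 * u2^9 + 216 * ζ^2 * u1^5 * u2^10 - 90 * ζ^2 * u1^3 * u2^12 + 90 * ζ * u1^14 * u2 - 216 * ζ * u1^13 * u2^2 + 216 * ζ * u1^12 * u2^3 + 108 * ζ * u1^11 * u2^4 - 1080 * ζ * u1^10 * u2^5 + 216 * ζ * u1^9 * u2^6 - 648 * ζ * u1^8 * u2^7 - 432 * ζ * u1^7 * u2^8 + 324 * ζ * u1^6 * u2^9 + 198 * ζ * u1^4 * u2^11 + 18 * u1^14 * u2 - 18 * u1^13 * u2^2 + 18 * u1^12 * u2^3 + 324 * u1^11 * u2^4 - 540 * u1^10 * u2^5 + 540 * u1^9 * u2^6 - 540 * u1^8 * u2^7 - 540 * u1^7 * u2^8 - 108 * u1^6 * u2^9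 + 18 * u1^4 * u2^11 - 18 * u1^3 * u2^12 + 18 * u1^2 * u2^13) * hd

theorem mix_indep {d ζ : K} (hd : 5 * d = 1) (hζ : ζ^4 + ζ^3 + ζ^2 + ζ + 1 = 0) (u1 u2 : K) :
    (qX u1 u2 - sX d ζ (u1^5) (u2^5)) * mG ζ u1 u2 = 36 * kf u1 u2 ^ 2 := by
  unfold sX qX mG kf
  linear_combination (-36 * d * ζ^2 * u1^22 * u2^2 - 180 * d * ζ^2 * u1^21 * u2^3 - 360 * d * ζ^2 * u1^20 * u2^4 - 360 * d * ζ^2 * u1^19 * u2^5 + 108 * d * ζ^2 * u1^17 * u2^7 - 1620 * d * ζ^2 * u1^16 * u2^8 - 4140 * d * ζ^2 * u1^15 * u2^9 - 4140 * d * ζ^2 * u1^14 * u2^10 + 5616 * d * ζ^2 * u1^12 * u2^12 + 4140 * d * ζ^2 * u1^11 * u2^13 - 1620 * d * ζ^2 * u1^10 * u2^14 - 1620 * d * ζ^2 * u1^9 * u2^15 - 108 * d * ζ^2 * u1^7 * u2^17 - 360 * d * ζ^2 * u1^6 * u2^18 + 180 * d * ζ^2 * u1^5 * u2^19 + 180 * d * ζ^2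 * u1^4 * u2^20 - 36 * d * ζ^2 * u1^2 * u2^22 - 36 * d * ζ * u1^22 * u2^2 - 180 * d * ζ * u1^21 * u2^3 - 360 * d * ζ * u1^20 * u2^4 - 360 * d * ζ * u1^19 * u2^5 + 108 * d * ζ * u1^17 * u2^7 - 1620 * d * ζ * u1^16 * u2^8 - 4140 * d * ζ * u1^15 * u2^9 - 4140 * d * ζ * u1^14 * u2^10 + 5616 * d * ζ * u1^12 * u2^12 + 4140 * d * ζ * u1^11 * u2^13 - 1620 * d * ζ * u1^10 * u2^14 - 1620 * d * ζ * u1^9 * u2^15 - 108 * d * ζ * u1^7 * u2^17 - 360 * d * ζ * u1^6 * u2^18 + 180 * d * ζ * u1^5 * u2^19 + 180 * d * ζ * u1^4 * u2^20 - 36 * d * ζ * u1^2 * u2^22 + 36 * d * u1^22 * u2^2 + 180 * d * u1^21 * u2^3 + 360 * d * u1^20 * u2^4 + 360 * d * u1^19 * u2^5 - 108 * d * u1^17 * u2^7 + 1620 * d * u1^16 * u2^8 + 4140 * d * u1^15 * u2^9 + 4140 * d * u1^14 * u2^10 - 5616 * d * u1^12 *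 u2^12 - 4140 * d * u1^11 * u2^13 + 1620 * d * u1^10 * u2^14 + 1620 * d * u1^9 * u2^15 + 108 * d * u1^7 * u2^17 + 360 * d * u1^6 * u2^18 - 180 * d * u1^5 * u2^19 - 180 * d * u1^4 * u2^20 + 36 * d * u1^2 * u2^22) * hζ + (-3 * ζ^3 * u1^22 * u2^2 + 21 * ζ^3 * u1^21 * u2^3 + 78 * ζ^3 * u1^20 * u2^4 + 78 * ζ^3 * u1^19 * u2^5 - 408 * ζ^3 * u1^17 * u2^7 - 816 * ζ^3 * u1^16 * u2^8 - 663 * ζ^3 * u1^15 * u2^9 - 663 * ζ^3 * u1^14 * u2^10 - 663 * ζ^3 * u1^11 * u2^13 + 816 * ζ^3 * u1^10 * u2^14 + 816 * ζ^3 * u1^9 * u2^15 - 408 * ζ^3 * u1^7 * u2^17 - 78 * ζ^3 * u1^6 * u2^18 + 21 * ζ^3 * u1^5 * u2^19 + 21 * ζ^3 * u1^4 * u2^20 + 3 * ζ^3 * u1^2 * u2^22 - 3 * ζ^2 * u1^22 * u2^2 + 21 * ζ^2 * u1^21 * u2^3 + 78 * ζ^2 * u1^20 * u2^4 + 78 * ζ^2 * u1^19 * u2^5 - 408 * ζ^2 * u1^17 * u2^7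 - 816 * ζ^2 * u1^16 * u2^8 - 663 * ζ^2 * u1^15 * u2^9 - 663 * ζ^2 * u1^14 * u2^10 - 663 * ζ^2 * u1^11 * u2^13 + 816 * ζ^2 * u1^10 * u2^14 + 816 * ζ^2 * u1^9 * u2^15 - 408 * ζ^2 * u1^7 * u2^17 - 78 * ζ^2 * u1^6 * u2^18 + 21 * ζ^2 * u1^5 * u2^19 + 21 * ζ^2 * u1^4 * u2^20 + 3 * ζ^2 * u1^2 * u2^22 + 27 * u1^22 * u2^2 + 78 * u1^21 * u2^3 + 99 * u1^20 * u2^4 + 99 * u1^19 * u2^5 - 177 * u1^17 * u2^7 - 663 * u1^16 * u2^8 - 1479 * u1^15 * u2^9 - 1479 * u1^14 * u2^10 + 1479 * u1^12 * u2^12 + 816 * u1^11 * u2^13 + 153 * u1^10 * u2^14 + 153 * u1^9 * u2^15 - 231 * u1^7 * u2^17 + 21 * u1^6 * u2^18 - 57 * u1^5 * u2^19 - 57 * u1^4 * u2^20 + 30 * u1^2 * u2^22) * hd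

end Identities

end Fermat.Agent.S52.TOR.H4252
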