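import Mathlib
import Fermat.Agent.S52.TOR.H4252Level5Data

/-!
# S52, piece P4: the level-5 structure on the Klein family (helper4252)

For a field `K` in which `2, 3, 5` are invertible, a root `ζ` of the 5th cyclotomic polynomial,
`d = 1/5`, and `u = (u1, u2)` with `kf u ≠ 0`, the curve
`E_u : y^2 = x^3 + 27 kH(u1^5,u2^5) x + 54 kT(u1^5,u2^5)` carries an injective homomorphism
`κ : ZMod 5 × ZMod 5 →+ E_u(K)` all of whose nonzero values are the explicit affine points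
`(secX d ζ m u1 u2, secY d ζ m u1 u2)`; `secX`, `secY` are polynomial in `u1, u2` (`secX_poly`) and
commute with ring homomorphisms (`map_secX`).
-/

set_option autoImplicit false
set_option linter.unusedSimpArgs false

namespace Fermat.Agent.S52.TOR.H4252

open WeierstrassCurve Fermat.Agent.S52

/-! ## Short Weierstrass curves -/

section ShortW

variable {K : Type*} [Field K]

/-- the short Weierstrass curve `y^2 = x^3 + A x + B` -/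
def sw (A B : K) : WeierstrassCurve.Affine K := ⟨0, 0, 0, A, B⟩

@[simp] lemma sw_a₁ (A B : K) : (sw A B).a₁ = 0 := rfl
@[simp] lemma sw_a₂ (A B : K) : (sw A B).a₂ = 0 := rfl
@[simp] lemma sw_a₃ (A B : K) : (sw A B).a₃ = 0 := rfl
@[simp] lemma sw_a₄ (A B : K) : (sw A B).a₄ = A := rfl
@[simp] lemma sw_a₆ (A B : K) : (sw A B).a₆ = B := rfl

lemma sw_equation {A B x y : K} : (sw A B).Equation x y ↔ y ^ 2 = x ^ 3 + A * x + B := by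
  rw [Affine.equation_iff]; simp

lemma sw_Δ (A B : K) : (sw A B).Δ = -16 * (4 * A ^ 3 + 27 * B ^ 2) := by
  simp [WeierstrassCurve.Δ, WeierstrassCurve.b₂, WeierstrassCurve.b₄, WeierstrassCurve.b₆,
    WeierstrassCurve.b₈]
  ring

lemma sw_nonsingular {A B x y : K} (hΔ : (sw A B).Δ ≠ 0) (h : y ^ 2 = x ^ 3 + A * x + B) :
    (sw A B).Nonsingular x y :=
  (Affine.equation_iff_nonsingular_of_Δ_ne_zero hΔ).mp (sw_equation.mpr h)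

/-- the affine point `(x, y)` of `sw A B` -/
def pt {A B : K} (hΔ : (sw A B).Δ ≠ 0) (x y : K) (h : y ^ 2 = x ^ 3 + A * x + B) :
    (sw A B).Point :=
  .some x y (sw_nonsingular hΔ h)

variable {A B : K} {hΔ : (sw A B).Δ ≠ 0}

lemma pt_ne_zero {x y : K} (h : y ^ 2 = x ^ 3 + A * x + B) : pt hΔ x y h ≠ 0 :=
  Affine.Point.some_ne_zero _

lemma pt_congr {x y x' y' : K} (h : y ^ 2 = x ^ 3 + A * x + B) (hx : x = x') (hy : y = y') :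
    pt hΔ x y h = pt hΔ x' y' (by rw [← hx, ← hy]; exact h) := by
  subst hx hy; rfl

lemma pt_neg {x y : K} (h : y ^ 2 = x ^ 3 + A * x + B) :
    -pt hΔ x y h = pt hΔ x (-y) (by rw [neg_sq]; exact h) := by
  unfold pt
  rw [Affine.Point.neg_some]
  congr 1
  simp [Affine.negY]

variable [DecidableEq K]

lemma pt_add {x1 y1 x2 y2 x3 y3 lam : K} (h1 : y1 ^ 2 = x1 ^ 3 + A * x1 + B)
    (h2 : y2 ^ 2 = x2 ^ 3 + A * x2 + B) (h3 : y3 ^ 2 = x3 ^ 3 + A * x3 + B) (hx : x1 ≠ x2)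
    (hl : y1 - y2 = lam * (x1 - x2)) (hx3 : x3 = lam ^ 2 - x1 - x2)
    (hy3 : y3 = lam * (x1 - x3) - y1) :
    pt hΔ x1 y1 h1 + pt hΔ x2 y2 h2 = pt hΔ x3 y3 h3 := by
  unfold pt
  rw [Affine.Point.add_of_X_ne hx]
  have hs : (sw A B).slope x1 x2 y1 y2 = lam := by
    rw [Affine.slope_of_X_ne hx, div_eq_iff (sub_ne_zero.mpr hx)]; exact hl
  congr 1
  · rw [hs]; simp [Affine.addX, hx3]
  · rw [hs]; simp [Affine.addY, Affine.negAddY, Affine.negY, Affine.addX]; rw [hy3, hx3]; ring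

lemma pt_dbl {x1 y1 x3 y3 lam : K} (h2 : (2 : K) ≠ 0) (h1 : y1 ^ 2 = x1 ^ 3 + A * x1 + B)
    (h3 : y3 ^ 2 = x3 ^ 3 + A * x3 + B) (hy : y1 ≠ 0)
    (hl : 3 * x1 ^ 2 + A = 2 * y1 * lam) (hx3 : x3 = lam ^ 2 - 2 * x1)
    (hy3 : y3 = lam * (x1 - x3) - y1) :
    pt hΔ x1 y1 h1 + pt hΔ x1 y1 h1 = pt hΔ x3 y3 h3 := by
  unfold pt
  have hny : y1 ≠ (sw A B).negY x1 y1 := by
    simp only [Affine.negY, sw_a₁, sw_a₃, zero_mul, sub_zero]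
    intro h
    have : 2 * y1 = 0 := by linear_combination h
    rcases mul_eq_zero.mp this with h | h
    · exact h2 h
    · exact hy h
  rw [Affine.Point.add_self_of_Y_ne hny]
  have hs : (sw A B).slope x1 x1 y1 y1 = lam := by
    rw [Affine.slope_of_Y_ne rfl hny]
    simp only [Affine.negY, sw_a₁, sw_a₂, sw_a₃, sw_a₄, zero_mul, sub_zero, mul_zero, add_zero]
    have h2y : y1 - -y1 ≠ 0 := by
      rw [sub_neg_eq_add, ← two_mul]; exact mul_ne_zero h2 hy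
    rw [div_eq_iff h2y]; linear_combination hl
  congr 1
  · rw [hs]; simp [Affine.addX, hx3]; ring
  · rw [hs]; simp [Affine.addY, Affine.negAddY, Affine.negY, Affine.addX]; rw [hy3, hx3]; ring

end ShortW

/-! ## Elements of order 5 in an abelian group -/

section Order5

variable {G : Type*} [AddCommGroup G]

lemma five_nsmul_of_dbl {R1 R2 : G} (h1 : R1 + R1 = R2) (h2 : R2 + R2 = -R1) :
    (5 : ℕ) • R1 = 0 := by
  have h : (5 : ℕ) • R1 = (R1 + R1) + (R1 + R1) + R1 := by abel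
  rw [h, h1, h2]; abel

/-- x-coordinate of `b • R` in terms of those of `R` and `2 R` (for `b ≠ 0` in `ZMod 5`). -/
def mulX {K : Type*} (b : ZMod 5) (x1 x2 : K) : K := if b = 1 ∨ b = 4 then x1 else x2

/-- y-coordinate of `b • R` in terms of those of `R` and `2 R` (for `b ≠ 0` in `ZMod 5`). -/
def mulY {K : Type*} [Neg K] (b : ZMod 5) (y1 y2 : K) : K :=
  if b = 1 then y1 else if b = 2 then y2 else if b = 3 then -y2 else -y1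

lemma nsmul_cases {R1 R2 : G} (h1 : R1 + R1 = R2) (h2 : R2 + R2 = -R1) (b : ZMod 5)
    (hb : b ≠ 0) :
    (b = 1 ∧ b.val • R1 = R1) ∨ (b = 2 ∧ b.val • R1 = R2) ∨ (b = 3 ∧ b.val • R1 = -R2) ∨
      (b = 4 ∧ b.val • R1 = -R1) := by
  have h5 := five_nsmul_of_dbl h1 h2
  have h3 : (3 : ℕ) • R1 = -R2 := by
    have h : (5 : ℕ) • R1 = (3 : ℕ) • R1 + (R1 + R1) := by abel
    rw [h, h1] at h5
    exact eq_neg_of_add_eq_zero_left h5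
  have h4 : (4 : ℕ) • R1 = -R1 := by
    have h : (4 : ℕ) • R1 = (R1 + R1) + (R1 + R1) := by abel
    rw [h, h1, h2]
  fin_cases b
  · exact absurd rfl hb
  · left; exact ⟨rfl, one_nsmul R1⟩
  · right; left; refine ⟨rfl, ?_⟩
    show (2 : ℕ) • R1 = R2
    rw [two_nsmul, h1]
  · right; right; left; exact ⟨rfl, h3⟩
  · right; right; right; exact ⟨rfl, h4⟩

lemma mulX_one {K : Type*} (x1 x2 : K) : mulX 1 x1 x2 = x1 := by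
  unfold mulX; rw [if_pos (by decide)]

lemma mulX_two {K : Type*} (x1 x2 : K) : mulX 2 x1 x2 = x2 := by
  unfold mulX; rw [if_neg (by decide)]

lemma mulX_three {K : Type*} (x1 x2 : K) : mulX 3 x1 x2 = x2 := by
  unfold mulX; rw [if_neg (by decide)]

lemma mulX_four {K : Type*} (x1 x2 : K) : mulX 4 x1 x2 = x1 := by
  unfold mulX; rw [if_pos (by decide)]

lemma mulY_one {K : Type*} [Neg K] (y1 y2 : K) : mulY 1 y1 y2 = y1 := by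
  unfold mulY; rw [if_pos (by decide)]

lemma mulY_two {K : Type*} [Neg K] (y1 y2 : K) : mulY 2 y1 y2 = y2 := by
  unfold mulY; rw [if_neg (by decide), if_pos (by decide)]

lemma mulY_three {K : Type*} [Neg K] (y1 y2 : K) : mulY 3 y1 y2 = -y2 := by
  unfold mulY; rw [if_neg (by decide), if_neg (by decide), if_pos (by decide)]

lemma mulY_four {K : Type*} [Neg K] (y1 y2 : K) : mulY 4 y1 y2 = -y1 := by
  unfold mulY; rw [if_neg (by decide), if_neg (by decide), if_neg (by decide)]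

lemma zmod5_mul_inv (a b : ZMod 5) (hb : b ≠ 0) : b * (a * b⁻¹) = a := by
  have : Fact (Nat.Prime 5) := ⟨by norm_num⟩
  rw [mul_comm a, ← mul_assoc, mul_inv_cancel₀ hb, one_mul]

end Order5

/-! ## The sections -/

section Sections

variable {K : Type*} [CommRing K]

/-- x-coordinate of the section with index `m` of the level-5 structure. -/
def secX (d ζ : K) (m : ZMod 5 × ZMod 5) (u1 u2 : K) : K :=
  if m.2 = 0 then mulX m.1 (sX d ζ (u1 ^ 5) (u2 ^ 5)) (sX d (ζ ^ 2) (u1 ^ 5) (u2 ^ 5))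
  else mulX m.2
    (qX (ζ ^ (2 * (m.1 * m.2⁻¹).val) * u1) (ζ ^ (3 * (m.1 * m.2⁻¹).val) * u2))
    (qX2 (ζ ^ (2 * (m.1 * m.2⁻¹).val) * u1) (ζ ^ (3 * (m.1 * m.2⁻¹).val) * u2))

/-- y-coordinate of the section with index `m` of the level-5 structure. -/
def secY (d ζ : K) (m : ZMod 5 × ZMod 5) (u1 u2 : K) : K :=
  if m.2 = 0 then mulY m.1 (sY d ζ (u1 ^ 5) (u2 ^ 5)) (sY d (ζ ^ 2) (u1 ^ 5) (u2 ^ 5))
  else mulY m.2
    (qY (ζ ^ (2 * (m.1 * m.2⁻¹).val) * u1) (ζ ^ (3 * (m.1 * m.2⁻¹).val) * u2))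
    (qY2 (ζ ^ (2 * (m.1 * m.2⁻¹).val) * u1) (ζ ^ (3 * (m.1 * m.2⁻¹).val) * u2))

variable {L : Type*} [CommRing L] (f : K →+* L)

lemma map_sX (d ζ p q : K) : f (sX d ζ p q) = sX (f d) (f ζ) (f p) (f q) := by
  simp only [sX, map_add, map_sub, map_mul, map_pow, map_neg, map_ofNat]

lemma map_sY (d ζ p q : K) : f (sY d ζ p q) = sY (f d) (f ζ) (f p) (f q) := by
  simp only [sY, map_add, map_sub, map_mul, map_pow, map_neg, map_ofNat]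

lemma map_qX (u1 u2 : K) : f (qX u1 u2) = qX (f u1) (f u2) := by
  simp only [qX, map_add, map_sub, map_mul, map_pow, map_neg, map_ofNat]

lemma map_qY (u1 u2 : K) : f (qY u1 u2) = qY (f u1) (f u2) := by
  simp only [qY, map_add, map_sub, map_mul, map_pow, map_neg, map_ofNat]

lemma map_qX2 (u1 u2 : K) : f (qX2 u1 u2) = qX2 (f u1) (f u2) := by
  simp only [qX2, map_add, map_sub, map_mul, map_pow, map_neg, map_ofNat]

lemma map_qY2 (u1 u2 : K) : f (qY2 u1 u2) = qY2 (f u1) (f u2) := by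
  simp only [qY2, map_add, map_sub, map_mul, map_pow, map_neg, map_ofNat]

/-- the sections commute with ring homomorphisms -/
theorem map_secX (d ζ : K) (m : ZMod 5 × ZMod 5) (u1 u2 : K) :
    f (secX d ζ m u1 u2) = secX (f d) (f ζ) m (f u1) (f u2) := by
  unfold secX mulX
  split_ifs <;> simp only [map_sX, map_qX, map_qX2, map_mul, map_pow]

/-- the sections commute with ring homomorphisms -/
theorem map_secY (d ζ : K) (m : ZMod 5 × ZMod 5) (u1 u2 : K) :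
    f (secY d ζ m u1 u2) = secY (f d) (f ζ) m (f u1) (f u2) := by
  unfold secY mulY
  split_ifs <;> simp only [map_sY, map_qY, map_qY2, map_mul, map_pow, map_neg]

/-- the sections are polynomial in `u1, u2` -/
theorem secX_poly (d ζ : K) (m : ZMod 5 × ZMod 5) :
    ∃ P : MvPolynomial (Fin 2) K, ∀ u1 u2 : K,
      MvPolynomial.eval ![u1, u2] P = secX d ζ m u1 u2 := by
  refine ⟨secX (MvPolynomial.C d) (MvPolynomial.C ζ) m (MvPolynomial.X 0) (MvPolynomial.X 1),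
    fun u1 u2 => ?_⟩
  rw [map_secX]
  simp

/-- the sections are polynomial in `u1, u2` -/
theorem secY_poly (d ζ : K) (m : ZMod 5 × ZMod 5) :
    ∃ P : MvPolynomial (Fin 2) K, ∀ u1 u2 : K,
      MvPolynomial.eval ![u1, u2] P = secY d ζ m u1 u2 := by
  refine ⟨secY (MvPolynomial.C d) (MvPolynomial.C ζ) m (MvPolynomial.X 0) (MvPolynomial.X 1),
    fun u1 u2 => ?_⟩
  rw [map_secY]
  simp

end Sections

/-! ## The level structure -/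

section Level5

variable {K : Type*} [Field K]

lemma kf_pow_five (v1 v2 : K) :
    kf v1 v2 ^ 5 = v1 ^ 5 * v2 ^ 5 * ((v1 ^ 5) ^ 2 + 11 * v1 ^ 5 * v2 ^ 5 - (v2 ^ 5) ^ 2) ^ 5 := by
  unfold kf; ring

lemma kf_ne_zero_of_pow {u1 u2 v1 v2 : K} (hf : kf u1 u2 ≠ 0) (h1 : v1 ^ 5 = u1 ^ 5)
    (h2 : v2 ^ 5 = u2 ^ 5) : kf v1 v2 ≠ 0 := by
  intro h
  apply hf
  have h0 : kf u1 u2 ^ 5 = 0 := by
    rw [kf_pow_five u1 u2, ← h1, ← h2, ← kf_pow_five v1 v2, h]; simp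
  exact (pow_eq_zero_iff (by norm_num)).mp h0

lemma pow_twist {ζ : K} (hζ : ζ ^ 4 + ζ ^ 3 + ζ ^ 2 + ζ + 1 = 0) (k : ℕ) (u : K) :
    (ζ ^ k * u) ^ 5 = u ^ 5 := by
  rw [mul_pow, ← pow_mul, mul_comm k 5, pow_mul, zeta_pow_five hζ, one_pow, one_mul]

lemma disc_ne_zero (h2 : (2 : K) ≠ 0) (h3 : (3 : K) ≠ 0) {u1 u2 A B : K} (hf : kf u1 u2 ≠ 0)
    (hA : A = 27 * kH (u1 ^ 5) (u2 ^ 5)) (hB : B = 54 * kT (u1 ^ 5) (u2 ^ 5)) :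
    (sw A B).Δ ≠ 0 := by
  rw [sw_Δ, hA, hB]
  have h : -16 * (4 * (27 * kH (u1 ^ 5) (u2 ^ 5)) ^ 3 + 27 * (54 * kT (u1 ^ 5) (u2 ^ 5)) ^ 2)
      = -(2 ^ 12 * 3 ^ 12) * kf u1 u2 ^ 5 := by
    unfold kH kT kf; ring
  rw [h]
  exact mul_ne_zero (neg_ne_zero.mpr (mul_ne_zero (pow_ne_zero _ h2) (pow_ne_zero _ h3)))
    (pow_ne_zero _ hf)

lemma c108_ne_zero (h2 : (2 : K) ≠ 0) (h3 : (3 : K) ≠ 0) : (108 : K) ≠ 0 := by
  have h : (108 : K) = 2 ^ 2 * 3 ^ 3 := by norm_num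
  rw [h]; exact mul_ne_zero (pow_ne_zero _ h2) (pow_ne_zero _ h3)

lemma c36_ne_zero (h2 : (2 : K) ≠ 0) (h3 : (3 : K) ≠ 0) : (36 : K) ≠ 0 := by
  have h : (36 : K) = 2 ^ 2 * 3 ^ 2 := by norm_num
  rw [h]; exact mul_ne_zero (pow_ne_zero _ h2) (pow_ne_zero _ h3)

lemma quad_ne_zero {u1 u2 : K} (hf : kf u1 u2 ≠ 0) :
    (u1 ^ 5) ^ 2 + 11 * (u1 ^ 5) * (u2 ^ 5) - (u2 ^ 5) ^ 2 ≠ 0 := by
  intro h
  apply hf
  unfold kf
  have h' : u1 ^ 10 + 11 * u1 ^ 5 * u2 ^ 5 - u2 ^ 10 = 0 := by linear_combination h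
  rw [h', mul_zero]

variable {d ζ : K} {u1 u2 A B : K}

lemma sY_ne_zero (hd : 5 * d = 1) (hζ : ζ ^ 4 + ζ ^ 3 + ζ ^ 2 + ζ + 1 = 0) (h2 : (2 : K) ≠ 0)
    (h3 : (3 : K) ≠ 0) (hf : kf u1 u2 ≠ 0) : sY d ζ (u1 ^ 5) (u2 ^ 5) ≠ 0 := by
  intro h
  have h' := sY_mul_sG hd hζ (u1 ^ 5) (u2 ^ 5)
  rw [h, zero_mul] at h'
  exact (mul_ne_zero (neg_ne_zero.mpr (c108_ne_zero h2 h3)) (pow_ne_zero 2 (quad_ne_zero hf)))
    h'.symm

lemma sP_eqn (hd : 5 * d = 1) (hζ : ζ ^ 4 + ζ ^ 3 + ζ ^ 2 + ζ + 1 = 0)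
    (hA : A = 27 * kH (u1 ^ 5) (u2 ^ 5)) (hB : B = 54 * kT (u1 ^ 5) (u2 ^ 5)) :
    sY d ζ (u1 ^ 5) (u2 ^ 5) ^ 2
      = sX d ζ (u1 ^ 5) (u2 ^ 5) ^ 3 + A * sX d ζ (u1 ^ 5) (u2 ^ 5) + B := by
  rw [hA, hB]; exact sP_on hd hζ _ _

lemma qQ_eqn {v1 v2 : K} (hv1 : v1 ^ 5 = u1 ^ 5) (hv2 : v2 ^ 5 = u2 ^ 5)
    (hA : A = 27 * kH (u1 ^ 5) (u2 ^ 5)) (hB : B = 54 * kT (u1 ^ 5) (u2 ^ 5)) :
    qY v1 v2 ^ 2 = qX v1 v2 ^ 3 + A * qX v1 v2 + B := by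
  rw [hA, hB, ← hv1, ← hv2]; exact qQ_on v1 v2

lemma qQ2_eqn {v1 v2 : K} (hv1 : v1 ^ 5 = u1 ^ 5) (hv2 : v2 ^ 5 = u2 ^ 5)
    (hA : A = 27 * kH (u1 ^ 5) (u2 ^ 5)) (hB : B = 54 * kT (u1 ^ 5) (u2 ^ 5)) :
    qY2 v1 v2 ^ 2 = qX2 v1 v2 ^ 3 + A * qX2 v1 v2 + B := by
  rw [hA, hB, ← hv1, ← hv2]; exact qQ2_on v1 v2

lemma qY_ne_zero (h2 : (2 : K) ≠ 0) (h3 : (3 : K) ≠ 0) {v1 v2 : K} (hf : kf v1 v2 ≠ 0) :
    qY v1 v2 ≠ 0 := by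
  intro h
  have h' := qY_mul_qG v1 v2
  rw [h, zero_mul] at h'
  exact (mul_ne_zero (c108_ne_zero h2 h3) (pow_ne_zero 2 hf)) h'.symm

lemma qY2_ne_zero (h2 : (2 : K) ≠ 0) (h3 : (3 : K) ≠ 0) {v1 v2 : K} (hf : kf v1 v2 ≠ 0) :
    qY2 v1 v2 ≠ 0 := by
  intro h
  have h' := qY2_mul_qG2 v1 v2
  rw [h, zero_mul] at h'
  exact (mul_ne_zero (c108_ne_zero h2 h3) (pow_ne_zero 2 hf)) h'.symm

variable [DecidableEq K]

/-- `2 P = P'` where `P'` is `P` at `ζ^2`. -/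
lemma P_dbl (hd : 5 * d = 1) (hζ : ζ ^ 4 + ζ ^ 3 + ζ ^ 2 + ζ + 1 = 0) (h2 : (2 : K) ≠ 0)
    (h3 : (3 : K) ≠ 0) (hf : kf u1 u2 ≠ 0) (hA : A = 27 * kH (u1 ^ 5) (u2 ^ 5))
    (hB : B = 54 * kT (u1 ^ 5) (u2 ^ 5)) (hΔ : (sw A B).Δ ≠ 0) :
    pt hΔ _ _ (sP_eqn hd hζ hA hB) + pt hΔ _ _ (sP_eqn hd hζ hA hB)
      = pt hΔ _ _ (sP_eqn hd (zeta_sq_root hζ) hA hB) :=
  pt_dbl h2 _ _ (sY_ne_zero hd hζ h2 h3 hf) (by rw [hA]; exact sP_slope hd hζ _ _)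
    (sP_dblX hd hζ _ _) (sP_dblY hd hζ _ _)

/-- `2 (2 P) = -P`. -/
lemma P_dbl2 (hd : 5 * d = 1) (hζ : ζ ^ 4 + ζ ^ 3 + ζ ^ 2 + ζ + 1 = 0) (h2 : (2 : K) ≠ 0)
    (h3 : (3 : K) ≠ 0) (hf : kf u1 u2 ≠ 0) (hA : A = 27 * kH (u1 ^ 5) (u2 ^ 5))
    (hB : B = 54 * kT (u1 ^ 5) (u2 ^ 5)) (hΔ : (sw A B).Δ ≠ 0) :
    pt hΔ _ _ (sP_eqn hd (zeta_sq_root hζ) hA hB) + pt hΔ _ _ (sP_eqn hd (zeta_sq_root hζ) hA hB)
      = -pt hΔ _ _ (sP_eqn hd hζ hA hB) := by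
  rw [P_dbl hd (zeta_sq_root hζ) h2 h3 hf hA hB hΔ, pt_neg]
  exact pt_congr _ (sX_pow_four hζ _ _) (sY_pow_four hζ _ _)

/-- `2 Q = Q2`. -/
lemma Q_dbl (h2 : (2 : K) ≠ 0) (h3 : (3 : K) ≠ 0) (hf : kf u1 u2 ≠ 0)
    (hA : A = 27 * kH (u1 ^ 5) (u2 ^ 5)) (hB : B = 54 * kT (u1 ^ 5) (u2 ^ 5))
    (hΔ : (sw A B).Δ ≠ 0) {v1 v2 : K} (hv1 : v1 ^ 5 = u1 ^ 5) (hv2 : v2 ^ 5 = u2 ^ 5) :
    pt hΔ _ _ (qQ_eqn hv1 hv2 hA hB) + pt hΔ _ _ (qQ_eqn hv1 hv2 hA hB)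
      = pt hΔ _ _ (qQ2_eqn hv1 hv2 hA hB) :=
  pt_dbl h2 _ _ (qY_ne_zero h2 h3 (kf_ne_zero_of_pow hf hv1 hv2))
    (by rw [hA, ← hv1, ← hv2]; exact qQ_slope v1 v2) (qQ_dblX v1 v2) (qQ_dblY v1 v2)

/-- `2 Q2 = -Q`. -/
lemma Q_dbl2 (h2 : (2 : K) ≠ 0) (h3 : (3 : K) ≠ 0) (hf : kf u1 u2 ≠ 0)
    (hA : A = 27 * kH (u1 ^ 5) (u2 ^ 5)) (hB : B = 54 * kT (u1 ^ 5) (u2 ^ 5))
    (hΔ : (sw A B).Δ ≠ 0) {v1 v2 : K} (hv1 : v1 ^ 5 = u1 ^ 5) (hv2 : v2 ^ 5 = u2 ^ 5) :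
    pt hΔ _ _ (qQ2_eqn hv1 hv2 hA hB) + pt hΔ _ _ (qQ2_eqn hv1 hv2 hA hB)
      = -pt hΔ _ _ (qQ_eqn hv1 hv2 hA hB) := by
  rw [pt_neg]
  exact pt_dbl h2 _ _ (qY2_ne_zero h2 h3 (kf_ne_zero_of_pow hf hv1 hv2))
    (by rw [hA, ← hv1, ← hv2]; exact qQ2_slope v1 v2) (qQ2_dblX v1 v2) (qQ2_dblY v1 v2)

/-- `P + Q(v) = Q(ζ^2 v1, ζ^3 v2)`. -/
lemma P_add_Q (hd : 5 * d = 1) (hζ : ζ ^ 4 + ζ ^ 3 + ζ ^ 2 + ζ + 1 = 0) (h2 : (2 : K) ≠ 0)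
    (h3 : (3 : K) ≠ 0) (hf : kf u1 u2 ≠ 0) (hA : A = 27 * kH (u1 ^ 5) (u2 ^ 5))
    (hB : B = 54 * kT (u1 ^ 5) (u2 ^ 5)) (hΔ : (sw A B).Δ ≠ 0) {v1 v2 : K}
    (hv1 : v1 ^ 5 = u1 ^ 5) (hv2 : v2 ^ 5 = u2 ^ 5) :
    pt hΔ _ _ (sP_eqn hd hζ hA hB) + pt hΔ _ _ (qQ_eqn hv1 hv2 hA hB)
      = pt hΔ (qX (ζ ^ 2 * v1) (ζ ^ 3 * v2)) (qY (ζ ^ 2 * v1) (ζ ^ 3 * v2))
          (qQ_eqn ((pow_twist hζ 2 v1).trans hv1) ((pow_twist hζ 3 v2).trans hv2) hA hB) := by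
  have hfv := kf_ne_zero_of_pow hf hv1 hv2
  refine pt_add _ _ _ ?_ (lam := mL d ζ v1 v2) ?_ ?_ ?_
  · intro h
    have h' := mix_indep hd hζ v1 v2
    rw [hv1, hv2, h, sub_self, zero_mul] at h'
    exact (mul_ne_zero (c36_ne_zero h2 h3) (pow_ne_zero 2 hfv)) h'.symm
  · have h' := mix_slope hd hζ v1 v2
    rw [hv1, hv2] at h'; exact h'
  · have h' := mix_addX hd hζ v1 v2
    rw [hv1, hv2] at h'; rw [qX_twist hζ]; exact h'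
  · have h' := mix_addY hd hζ v1 v2
    rw [hv1, hv2] at h'; rw [qY_twist hζ, qX_twist hζ]; exact h'

/-- `c P + Q = Q(ζ^(2c) u1, ζ^(3c) u2)`. -/
lemma nsmul_P_add_Q (hd : 5 * d = 1) (hζ : ζ ^ 4 + ζ ^ 3 + ζ ^ 2 + ζ + 1 = 0) (h2 : (2 : K) ≠ 0)
    (h3 : (3 : K) ≠ 0) (hf : kf u1 u2 ≠ 0) (hA : A = 27 * kH (u1 ^ 5) (u2 ^ 5))
    (hB : B = 54 * kT (u1 ^ 5) (u2 ^ 5)) (hΔ : (sw A B).Δ ≠ 0) (c : ℕ) :
    c • pt hΔ _ _ (sP_eqn hd hζ hA hB) + pt hΔ _ _ (qQ_eqn (rfl : u1 ^ 5 = u1 ^ 5) rfl hA hB)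
      = pt hΔ (qX (ζ ^ (2 * c) * u1) (ζ ^ (3 * c) * u2)) (qY (ζ ^ (2 * c) * u1) (ζ ^ (3 * c) * u2))
          (qQ_eqn (pow_twist hζ _ u1) (pow_twist hζ _ u2) hA hB) := by
  induction c with
  | zero =>
    rw [zero_nsmul, zero_add]
    exact pt_congr _ (by simp) (by simp)
  | succ c ih =>
    rw [succ_nsmul, add_comm (c • _) _, add_assoc, ih,
      P_add_Q hd hζ h2 h3 hf hA hB hΔ (pow_twist hζ _ u1) (pow_twist hζ _ u2)]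
    exact pt_congr _ (by ring_nf) (by ring_nf)

omit [DecidableEq K] in
lemma pt_eq_some {hΔ : (sw A B).Δ ≠ 0} {x y x' y' : K} (h : y ^ 2 = x ^ 3 + A * x + B)
    (hx : x' = x) (hy : y' = y) :
    ∃ h' : (sw A B).Nonsingular x' y', pt hΔ x y h = Affine.Point.some x' y' h' := by
  subst hx hy; exact ⟨_, rfl⟩

/-- the multiples of a point `R1 = (x1, y1)` with `2 R1 = (x2, y2)`, `2 (2 R1) = -R1`. -/
lemma nsmul_pt {hΔ : (sw A B).Δ ≠ 0} {x1 y1 x2 y2 : K} (h1 : y1 ^ 2 = x1 ^ 3 + A * x1 + B)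
    (h2 : y2 ^ 2 = x2 ^ 3 + A * x2 + B)
    (h12 : pt hΔ x1 y1 h1 + pt hΔ x1 y1 h1 = pt hΔ x2 y2 h2)
    (h21 : pt hΔ x2 y2 h2 + pt hΔ x2 y2 h2 = -pt hΔ x1 y1 h1) (b : ZMod 5) (hb : b ≠ 0)
    {x y : K} (hx : x = mulX b x1 x2) (hy : y = mulY b y1 y2) :
    ∃ h' : (sw A B).Nonsingular x y, b.val • pt hΔ x1 y1 h1 = Affine.Point.some x y h' := by
  rcases nsmul_cases h12 h21 b hb with ⟨h, e⟩ | ⟨h, e⟩ | ⟨h, e⟩ | ⟨h, e⟩
  · subst h; rw [e]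
    exact pt_eq_some _ (hx.trans (mulX_one _ _)) (hy.trans (mulY_one _ _))
  · subst h; rw [e]
    exact pt_eq_some _ (hx.trans (mulX_two _ _)) (hy.trans (mulY_two _ _))
  · subst h; rw [e, pt_neg]
    exact pt_eq_some _ (hx.trans (mulX_three _ _)) (hy.trans (mulY_three _ _))
  · subst h; rw [e, pt_neg]
    exact pt_eq_some _ (hx.trans (mulX_four _ _)) (hy.trans (mulY_four _ _))

/-- **P4**: the level-5 structure on `E_u`, with explicit polynomial sections. -/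
theorem level5_structure (hd : 5 * d = 1) (hζ : ζ ^ 4 + ζ ^ 3 + ζ ^ 2 + ζ + 1 = 0)
    (h2 : (2 : K) ≠ 0) (h3 : (3 : K) ≠ 0) (hf : kf u1 u2 ≠ 0)
    (hA : A = 27 * kH (u1 ^ 5) (u2 ^ 5)) (hB : B = 54 * kT (u1 ^ 5) (u2 ^ 5)) :
    ∃ κ : ZMod 5 × ZMod 5 →+ (sw A B).Point, Function.Injective κ ∧
      ∀ m : ZMod 5 × ZMod 5, m ≠ 0 →
        ∃ h : (sw A B).Nonsingular (secX d ζ m u1 u2) (secY d ζ m u1 u2),
          κ m = Affine.Point.some _ _ h := by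
  have hΔ := disc_ne_zero h2 h3 hf hA hB
  have hP12 := P_dbl hd hζ h2 h3 hf hA hB hΔ
  have hP21 := P_dbl2 hd hζ h2 h3 hf hA hB hΔ
  have hQ12 := Q_dbl h2 h3 hf hA hB hΔ (rfl : u1 ^ 5 = u1 ^ 5) (rfl : u2 ^ 5 = u2 ^ 5)
  have hQ21 := Q_dbl2 h2 h3 hf hA hB hΔ (rfl : u1 ^ 5 = u1 ^ 5) (rfl : u2 ^ 5 = u2 ^ 5)
  have h5P := five_nsmul_of_dbl hP12 hP21
  have h5Q := five_nsmul_of_dbl hQ12 hQ21
  set P1 := pt hΔ _ _ (sP_eqn hd hζ hA hB) with hP1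
  set Q1 := pt hΔ _ _ (qQ_eqn (rfl : u1 ^ 5 = u1 ^ 5) (rfl : u2 ^ 5 = u2 ^ 5) hA hB) with hQ1
  have h5P' : (zmultiplesHom (sw A B).Point P1) ((5 : ℕ) : ℤ) = 0 := by
    rw [zmultiplesHom_apply, natCast_zsmul]; exact h5P
  have h5Q' : (zmultiplesHom (sw A B).Point Q1) ((5 : ℕ) : ℤ) = 0 := by
    rw [zmultiplesHom_apply, natCast_zsmul]; exact h5Q
  let fP : ZMod 5 →+ (sw A B).Point := ZMod.lift 5 ⟨zmultiplesHom _ P1, h5P'⟩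
  let fQ : ZMod 5 →+ (sw A B).Point := ZMod.lift 5 ⟨zmultiplesHom _ Q1, h5Q'⟩
  have hfP : ∀ n : ℕ, fP (n : ZMod 5) = n • P1 := by
    intro n
    have h := ZMod.lift_coe 5 ⟨zmultiplesHom _ P1, h5P'⟩ (n : ℤ)
    rw [Int.cast_natCast] at h
    rw [show fP = ZMod.lift 5 ⟨zmultiplesHom _ P1, h5P'⟩ from rfl, h]
    simp
  have hfQ : ∀ n : ℕ, fQ (n : ZMod 5) = n • Q1 := by
    intro n
    have h := ZMod.lift_coe 5 ⟨zmultiplesHom _ Q1, h5Q'⟩ (n : ℤ)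
    rw [Int.cast_natCast] at h
    rw [show fQ = ZMod.lift 5 ⟨zmultiplesHom _ Q1, h5Q'⟩ from rfl, h]
    simp
  have hfP' : ∀ a : ZMod 5, fP a = a.val • P1 := fun a => by
    conv_lhs => rw [← ZMod.natCast_zmod_val a]
    exact hfP _
  have hfQ' : ∀ a : ZMod 5, fQ a = a.val • Q1 := fun a => by
    conv_lhs => rw [← ZMod.natCast_zmod_val a]
    exact hfQ _
  have table : ∀ m : ZMod 5 × ZMod 5, m ≠ 0 →
      ∃ h : (sw A B).Nonsingular (secX d ζ m u1 u2) (secY d ζ m u1 u2),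
        (fP.coprod fQ) m = Affine.Point.some _ _ h := by
    rintro ⟨a, b⟩ hm
    rw [AddMonoidHom.coprod_apply]
    by_cases hb : b = 0
    · subst hb
      have ha : a ≠ 0 := fun h => hm (by rw [h]; rfl)
      rw [map_zero, add_zero, hfP' a]
      exact nsmul_pt _ _ hP12 hP21 a ha (by simp [secX]) (by simp [secY])
    · have hv1 := pow_twist hζ (2 * (a * b⁻¹).val) u1
      have hv2 := pow_twist hζ (3 * (a * b⁻¹).val) u2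
      have hc := nsmul_P_add_Q hd hζ h2 h3 hf hA hB hΔ (a * b⁻¹).val
      have hQv12 := Q_dbl h2 h3 hf hA hB hΔ hv1 hv2
      have hQv21 := Q_dbl2 h2 h3 hf hA hB hΔ hv1 hv2
      have e1 : fP a = (b.val * (a * b⁻¹).val) • P1 := by
        rw [← hfP, Nat.cast_mul, ZMod.natCast_zmod_val, ZMod.natCast_zmod_val,
          zmod5_mul_inv a b hb]
      have key : fP a + fQ b
          = b.val • pt hΔ _ _ (qQ_eqn hv1 hv2 hA hB) := by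
        rw [e1, hfQ' b, mul_nsmul', ← nsmul_add, hc]
      rw [key]
      exact nsmul_pt _ _ hQv12 hQv21 b hb (by simp [secX, hb]) (by simp [secY, hb])
  refine ⟨fP.coprod fQ, ?_, table⟩
  rw [injective_iff_map_eq_zero]
  intro m hm
  by_contra hne
  obtain ⟨h, hk⟩ := table m hne
  rw [hk] at hm
  exact Affine.Point.some_ne_zero _ hm

end Level5

end Fermat.Agent.S52.TOR.H4252
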