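import Fermat.Agent.S52.TOR.SecCoord
import Fermat.Agent.S52.TOR.H4252Level5

/-!
# S52 / TOR : the explicit level-5 structure on `E_u` (sub-package LEVEL)

`exists_level5`: for `u` with `kf u ≠ 0` and `z` a primitive 5th root of unity, the explicit sections
give an injective homomorphism `κ : (ZMod 5)² →+ E_u(K)` with `κ m = (secX m .., secY m ..)` for `m ≠ 0`.

Proof (helper1449): the level structure `H4252.level5_structure` of helper4252 (same section data,
with the two generators in the other order) composed with the swap of the two factors; the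
coordinate tables agree by `secX_swap`, `secY_swap` below.
-/

set_option autoImplicit false

open WeierstrassCurve WeierstrassCurve.Affine

namespace Fermat.Agent.S52.TOR

open Fermat.Agent.S52

namespace Level1449

section coords

variable {K : Type*} [CommRing K]

lemma qX_eq (v1 v2 : K) : H4252.qX v1 v2 = secXP v1 v2 := by
  unfold H4252.qX secXP; ring

lemma qY_eq (v1 v2 : K) : H4252.qY v1 v2 = secYP v1 v2 := by
  unfold H4252.qY secYP; ring

lemma qX2_eq (v1 v2 : K) : H4252.qX2 v1 v2 = secX2P v1 v2 := by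
  unfold H4252.qX2 secX2P; ring

lemma qY2_eq (v1 v2 : K) : H4252.qY2 v1 v2 = secY2P v1 v2 := by
  unfold H4252.qY2 secY2P; ring

lemma sX_eq (d w p q : K) : H4252.sX d w p q = d * secXQ5 w p q := by
  unfold H4252.sX secXQ5; ring

lemma sY_eq (d w p q : K) : H4252.sY d w p q = d * secYQ5 w p q := by
  unfold H4252.sY secYQ5; ring

lemma zmod5_cases (b : ZMod 5) : b = 0 ∨ b = 1 ∨ b = 2 ∨ b = 3 ∨ b = 4 := by
  revert b; decide

lemma pow_eight {z : K} (hz : z ^ 4 + z ^ 3 + z ^ 2 + z + 1 = 0) : ((z ^ 2) ^ 2) ^ 2 = z ^ 3 := by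
  have h5 := H4252.zeta_pow_five hz
  linear_combination z ^ 3 * h5

lemma secXQ5_three {z : K} (hz : z ^ 4 + z ^ 3 + z ^ 2 + z + 1 = 0) (d p q : K) :
    d * secXQ5 (z ^ 3) p q = H4252.sX d (z ^ 2) p q := by
  rw [← sX_eq, ← pow_eight hz]
  exact H4252.sX_pow_four (H4252.zeta_sq_root hz) p q

lemma secYQ5_three {z : K} (hz : z ^ 4 + z ^ 3 + z ^ 2 + z + 1 = 0) (d p q : K) :
    d * secYQ5 (z ^ 3) p q = -H4252.sY d (z ^ 2) p q := by
  rw [← sY_eq, ← pow_eight hz]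
  exact H4252.sY_pow_four (H4252.zeta_sq_root hz) p q

lemma secXQ5_four {z : K} (hz : z ^ 4 + z ^ 3 + z ^ 2 + z + 1 = 0) (d p q : K) :
    d * secXQ5 (z ^ 4) p q = H4252.sX d z p q := by
  rw [← sX_eq, show z ^ 4 = (z ^ 2) ^ 2 by ring]
  exact H4252.sX_pow_four hz p q

lemma secYQ5_four {z : K} (hz : z ^ 4 + z ^ 3 + z ^ 2 + z + 1 = 0) (d p q : K) :
    d * secYQ5 (z ^ 4) p q = -H4252.sY d z p q := by
  rw [← sY_eq, show z ^ 4 = (z ^ 2) ^ 2 by ring]
  exact H4252.sY_pow_four hz p q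

lemma val_one : (1 : ZMod 5).val = 1 := by decide
lemma val_two : (2 : ZMod 5).val = 2 := by decide
lemma val_three : (3 : ZMod 5).val = 3 := by decide
lemma val_four : (4 : ZMod 5).val = 4 := by decide

/-- The `x`-coordinate tables of helper4252 and of `SecCoord.lean` agree up to the swap. -/
lemma secX_swap {z : K} (hz : z ^ 4 + z ^ 3 + z ^ 2 + z + 1 = 0) (d u1 u2 : K)
    (m : ZMod 5 × ZMod 5) (hm : m ≠ 0) :
    H4252.secX d z (m.2, m.1) u1 u2 = secX m z d u1 u2 := by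
  obtain ⟨a, b⟩ := m
  unfold H4252.secX secX
  by_cases ha : a = 0
  · subst ha
    have hb : b ≠ 0 := fun h => hm (by rw [h]; rfl)
    rw [if_pos rfl, if_pos rfl]
    rcases zmod5_cases b with rfl | rfl | rfl | rfl | rfl
    · exact absurd rfl hb
    · rw [H4252.mulX_one, sX_eq, val_one, pow_one]
    · rw [H4252.mulX_two, sX_eq, val_two]
    · rw [H4252.mulX_three, val_three, secXQ5_three hz]
    · rw [H4252.mulX_four, val_four, secXQ5_four hz]
  · rw [if_neg ha, if_neg ha]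
    unfold H4252.mulX
    simp only [qX_eq, qX2_eq]

/-- The `y`-coordinate tables of helper4252 and of `SecCoord.lean` agree up to the swap. -/
lemma secY_swap {z : K} (hz : z ^ 4 + z ^ 3 + z ^ 2 + z + 1 = 0) (d u1 u2 : K)
    (m : ZMod 5 × ZMod 5) (hm : m ≠ 0) :
    H4252.secY d z (m.2, m.1) u1 u2 = secY m z d u1 u2 := by
  obtain ⟨a, b⟩ := m
  unfold H4252.secY secY
  by_cases ha : a = 0
  · subst ha
    have hb : b ≠ 0 := fun h => hm (by rw [h]; rfl)
    rw [if_pos rfl, if_pos rfl]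
    rcases zmod5_cases b with rfl | rfl | rfl | rfl | rfl
    · exact absurd rfl hb
    · rw [H4252.mulY_one, sY_eq, val_one, pow_one]
    · rw [H4252.mulY_two, sY_eq, val_two]
    · rw [H4252.mulY_three, val_three, secYQ5_three hz]
    · rw [H4252.mulY_four, val_four, secYQ5_four hz]
  · rw [if_neg ha, if_neg ha]
    unfold H4252.mulY
    simp only [qY_eq, qY2_eq]

end coords

/-- `exists_level5` for a curve given as `H4252.sw A B`. -/
theorem exists_level5_sw {K : Type*} [Field K] [DecidableEq K] (h2 : (2 : K) ≠ 0)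
    (h3 : (3 : K) ≠ 0) (h5 : (5 : K) ≠ 0) (z u1 u2 : K)
    (hz : z ^ 4 + z ^ 3 + z ^ 2 + z + 1 = 0) (hf : kf u1 u2 ≠ 0) (A B : K)
    (hA : A = 27 * kH (u1 ^ 5) (u2 ^ 5)) (hB : B = 54 * kT (u1 ^ 5) (u2 ^ 5))
    (W : WeierstrassCurve K) (hW : W = H4252.sw A B) :
    ∃ κ : ZMod 5 × ZMod 5 →+ W.toAffine.Point, Function.Injective κ ∧
      ∀ m, m ≠ 0 → ∃ h, κ m =
        Point.some (secX m z (5 : K)⁻¹ u1 u2) (secY m z (5 : K)⁻¹ u1 u2) h := by
  subst hW
  have hd : 5 * (5 : K)⁻¹ = 1 := mul_inv_cancel₀ h5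
  obtain ⟨κ', hinj, hκ'⟩ := H4252.level5_structure (A := A) (B := B) hd hz h2 h3 hf hA hB
  refine ⟨κ'.comp (AddEquiv.prodComm (M := ZMod 5) (N := ZMod 5)).toAddMonoidHom,
    hinj.comp (AddEquiv.injective _), fun m hm => ?_⟩
  have hm' : ((m.2, m.1) : ZMod 5 × ZMod 5) ≠ 0 := by
    intro h
    apply hm
    have h1 := congrArg Prod.fst h
    have h2 := congrArg Prod.snd h
    exact Prod.ext h2 h1
  obtain ⟨h, hk⟩ := hκ' (m.2, m.1) hm'
  rw [← secX_swap hz _ u1 u2 m hm, ← secY_swap hz _ u1 u2 m hm]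
  exact ⟨h, hk⟩

end Level1449

/-- The explicit full level-5 structure on `E_u`. -/
theorem exists_level5 {K : Type*} [Field K] [DecidableEq K] (h2 : (2 : K) ≠ 0) (h3 : (3 : K) ≠ 0)
    (h5 : (5 : K) ≠ 0) (z u1 u2 : K) (hz : z ^ 4 + z ^ 3 + z ^ 2 + z + 1 = 0)
    (hf : kf u1 u2 ≠ 0) (W : WeierstrassCurve K) (ha₁ : W.a₁ = 0) (ha₂ : W.a₂ = 0)
    (ha₃ : W.a₃ = 0) (ha₄ : W.a₄ = 27 * kH (u1 ^ 5) (u2 ^ 5))
    (ha₆ : W.a₆ = 54 * kT (u1 ^ 5) (u2 ^ 5)) :
    ∃ κ : ZMod 5 × ZMod 5 →+ W.toAffine.Point, Function.Injective κ ∧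
      ∀ m, m ≠ 0 → ∃ h, κ m =
        Point.some (secX m z (5 : K)⁻¹ u1 u2) (secY m z (5 : K)⁻¹ u1 u2) h := by
  refine Level1449.exists_level5_sw h2 h3 h5 z u1 u2 hz hf W.a₄ W.a₆ ha₄ ha₆ W ?_
  unfold H4252.sw
  ext
  · exact ha₁
  · exact ha₂
  · exact ha₃
  · rfl
  · rfl

end Fermat.Agent.S52.TOR
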