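import Mathlib
import Fermat.Agent.S51.H2811B

/-!
Package TOR of project S52, abstract part (A): the "Zariski argument".

Two polynomial families (in a parameter `σ`) of injective homomorphisms
`ZMod 5 × ZMod 5 →+ E_σ(K)` into the same family of Weierstrass curves differ by a relabelling
`g` of the index set that does not depend on `σ`.
-/

set_option autoImplicit false

namespace Fermat.Agent.S52.TOR.Zariski

open WeierstrassCurve WeierstrassCurve.Affine Polynomial
open Fermat.Agent.S51.H2811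

variable {K : Type*} [Field K]

lemma F16_natDegree_of_fifteen (W : WeierstrassCurve K) (h15 : (15 : K) ≠ 0) :
    (F16 W).natDegree = 16 := by
  unfold F16 Npoly Dpoly
  compute_degree
  case coeff_ne_zero => exact neg_ne_zero.mpr h15
  all_goals norm_num

lemma F16_ne_zero_of_fifteen (W : WeierstrassCurve K) (h15 : (15 : K) ≠ 0) : F16 W ≠ 0 := by
  intro h
  have := F16_natDegree_of_fifteen W h15
  rw [h] at this
  simp at this

variable [DecidableEq K]

/-- The `5`-torsion of a Weierstrass curve over a field in which `15 ≠ 0` has at most `33`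
points (the characteristic-free version of the landed `S51` lemma). -/
lemma torsion_five_card_of_fifteen (W : WeierstrassCurve K) (h15 : (15 : K) ≠ 0) :
    Finite (Submodule.torsionBy ℤ W.toAffine.Point ((5 : ℕ) : ℤ)) ∧
      Nat.card (Submodule.torsionBy ℤ W.toAffine.Point ((5 : ℕ) : ℤ)) ≤ 33 := by
  classical
  obtain ⟨hfin, hcard⟩ := card_le_of_xc_mem
    (T := (Submodule.torsionBy ℤ W.toAffine.Point ((5 : ℕ) : ℤ) : Set W.toAffine.Point))
    (S := (F16 W).roots.toFinset) (by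
      intro P hP hP0
      have h5 : (5 : ℕ) • P = 0 := by
        have := (Submodule.mem_torsionBy_iff _ _).mp hP
        rwa [natCast_zsmul] at this
      obtain ⟨-, -, -, h1, h2⟩ := two_cycle_of_five_nsmul P hP0 h5
      rw [Multiset.mem_toFinset, mem_roots (F16_ne_zero_of_fifteen W h15), IsRoot.def]
      exact F16_eval_eq_zero W h1 h2)
  refine ⟨hfin, hcard.trans ?_⟩
  have : (F16 W).roots.toFinset.card ≤ 16 :=
    (Multiset.toFinset_card_le _).trans
      ((Polynomial.card_roots' _).trans (F16_natDegree_of_fifteen W h15).le)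
  omega

/-- An injective hom `ZMod 5 × ZMod 5 →+ W(K)` has range equal to the `5`-torsion. -/
theorem range_eq_torsion (W : WeierstrassCurve K) (h15 : (15 : K) ≠ 0)
    (κ : ZMod 5 × ZMod 5 →+ W.toAffine.Point) (hκ : Function.Injective κ) :
    κ.range = (Submodule.torsionBy ℤ W.toAffine.Point ((5 : ℕ) : ℤ)).toAddSubgroup := by
  classical
  obtain ⟨hfin, hcard⟩ := torsion_five_card_of_fifteen W h15
  set T : AddSubgroup W.toAffine.Point :=
    (Submodule.torsionBy ℤ W.toAffine.Point ((5 : ℕ) : ℤ)).toAddSubgroup with hT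
  have hfinT : Finite T := hfin
  have hcardT : Nat.card T ≤ 33 := hcard
  have hle : κ.range ≤ T := by
    rintro _ ⟨m, rfl⟩
    change κ m ∈ Submodule.torsionBy ℤ W.toAffine.Point ((5 : ℕ) : ℤ)
    rw [Submodule.mem_torsionBy_iff, natCast_zsmul, ← map_nsmul]
    have h5 : (5 : ℕ) • m = 0 := by
      revert m
      decide
    rw [h5, map_zero]
  have hcardR : Nat.card κ.range = 25 := by
    have e : (ZMod 5 × ZMod 5) ≃ κ.range := Equiv.ofInjective κ hκ
    rw [← Nat.card_congr e, Nat.card_prod, Nat.card_zmod]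
  have hdvd : Nat.card κ.range ∣ Nat.card T := AddSubgroup.card_dvd_of_le hle
  rw [hcardR] at hdvd
  have hpos : 0 < Nat.card T := Nat.card_pos
  have hT25 : Nat.card T = 25 := by
    obtain ⟨k, hk⟩ := hdvd
    have : k = 1 := by omega
    omega
  exact AddSubgroup.eq_of_le_of_card_ge hle (by rw [hT25, hcardR])

/-- Two injective homs `ZMod 5 × ZMod 5 →+ W(K)` have the same range. -/
theorem exists_eq_of_injective (W : WeierstrassCurve K) (h15 : (15 : K) ≠ 0)
    (κ₁ κ₂ : ZMod 5 × ZMod 5 →+ W.toAffine.Point) (h₁ : Function.Injective κ₁)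
    (h₂ : Function.Injective κ₂) (m : ZMod 5 × ZMod 5) : ∃ m', κ₁ m' = κ₂ m := by
  have hm : κ₂ m ∈ κ₁.range := by
    rw [range_eq_torsion W h15 κ₁ h₁, ← range_eq_torsion W h15 κ₂ h₂]
    exact ⟨m, rfl⟩
  exact hm

/-- **Zariski argument.**  Let `E σ` be a family of Weierstrass curves over an infinite field
`K` (with `15 ≠ 0`), and let `(x₁ m, y₁ m)`, `(x₂ m, y₂ m)` (`m ∈ (ZMod 5)²`) be two families of
polynomials in `σ` such that for every `σ` outside the zero set of `bad ≠ 0` each family gives,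
for `m ≠ 0`, the affine coordinates of the values of an injective group homomorphism
`(ZMod 5)² →+ E σ`.  Then the two families coincide up to a relabelling `g` of the index set,
as polynomials. -/
theorem exists_relabel [Infinite K] (h15 : (15 : K) ≠ 0)
    (E : K → WeierstrassCurve K) (bad : K[X]) (hbad : bad ≠ 0)
    (x₁ y₁ x₂ y₂ : ZMod 5 × ZMod 5 → K[X])
    (h₁ : ∀ σ, bad.eval σ ≠ 0 →
      ∃ κ : ZMod 5 × ZMod 5 →+ (E σ).toAffine.Point, Function.Injective κ ∧
        ∀ m, m ≠ 0 → ∃ h, κ m = Point.some ((x₁ m).eval σ) ((y₁ m).eval σ) h)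
    (h₂ : ∀ σ, bad.eval σ ≠ 0 →
      ∃ κ : ZMod 5 × ZMod 5 →+ (E σ).toAffine.Point, Function.Injective κ ∧
        ∀ m, m ≠ 0 → ∃ h, κ m = Point.some ((x₂ m).eval σ) ((y₂ m).eval σ) h) :
    ∃ g : ZMod 5 × ZMod 5 → ZMod 5 × ZMod 5, g 0 = 0 ∧
      ∀ m, m ≠ 0 → g m ≠ 0 ∧ x₂ m = x₁ (g m) ∧ y₂ m = y₁ (g m) := by
  classical
  -- the good parameters
  set S : Set K := {σ | bad.eval σ ≠ 0} with hS
  have hSinf : S.Infinite := by
    have hfin : (Sᶜ).Finite := by
      have : Sᶜ = {σ | bad.IsRoot σ} := by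
        ext σ
        simp [hS, IsRoot.def]
      rw [this]
      exact Polynomial.finite_setOfPred_isRoot hbad
    have := hfin.infinite_compl
    rwa [compl_compl] at this
  have : Infinite S := hSinf.to_subtype
  choose κ₁ hinj₁ hc₁ using h₁
  choose κ₂ hinj₂ hc₂ using h₂
  -- the relabelling at a good parameter
  have hex : ∀ σ : S, ∀ m, ∃ m', κ₁ σ.1 σ.2 m' = κ₂ σ.1 σ.2 m := fun σ m =>
    exists_eq_of_injective (E σ.1) h15 (κ₁ σ.1 σ.2) (κ₂ σ.1 σ.2) (hinj₁ σ.1 σ.2) (hinj₂ σ.1 σ.2) m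
  choose G hG using hex
  obtain ⟨g, hg⟩ := Finite.exists_infinite_fiber G
  have hgne : (G ⁻¹' {g}).Nonempty := Set.Nonempty.of_subtype
  have hgσ : ∀ σ : S, σ ∈ G ⁻¹' {g} → ∀ m, κ₁ σ.1 σ.2 (g m) = κ₂ σ.1 σ.2 m := by
    intro σ hσ m
    have : G σ = g := hσ
    rw [← this]
    exact hG σ m
  obtain ⟨σ₀, hσ₀⟩ := hgne
  have hg0 : g 0 = 0 := by
    have := hgσ σ₀ hσ₀ 0
    rw [map_zero, ← map_zero (κ₁ σ₀.1 σ₀.2)] at this
    exact hinj₁ σ₀.1 σ₀.2 this
  have hgm : ∀ m, m ≠ 0 → g m ≠ 0 := by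
    intro m hm h0
    have := hgσ σ₀ hσ₀ m
    rw [h0, map_zero, ← map_zero (κ₂ σ₀.1 σ₀.2)] at this
    exact hm (hinj₂ σ₀.1 σ₀.2 this.symm)
  have hFinf : (Subtype.val '' (G ⁻¹' {g}) : Set K).Infinite :=
    (Set.infinite_coe_iff.mp hg).image Subtype.val_injective.injOn
  refine ⟨g, hg0, fun m hm => ⟨hgm m hm, ?_, ?_⟩⟩
  · rw [← sub_eq_zero]
    apply Polynomial.eq_zero_of_infinite_isRoot
    refine hFinf.mono ?_
    rintro _ ⟨σ, hσ, rfl⟩
    obtain ⟨h1, e1⟩ := hc₁ σ.1 σ.2 (g m) (hgm m hm)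
    obtain ⟨h2, e2⟩ := hc₂ σ.1 σ.2 m hm
    have := hgσ σ hσ m
    rw [e1, e2, Point.some.injEq] at this
    simp only [Set.mem_ofPred_eq, IsRoot.def, eval_sub, sub_eq_zero]
    exact this.1.symm
  · rw [← sub_eq_zero]
    apply Polynomial.eq_zero_of_infinite_isRoot
    refine hFinf.mono ?_
    rintro _ ⟨σ, hσ, rfl⟩
    obtain ⟨h1, e1⟩ := hc₁ σ.1 σ.2 (g m) (hgm m hm)
    obtain ⟨h2, e2⟩ := hc₂ σ.1 σ.2 m hm
    have := hgσ σ hσ m
    rw [e1, e2, Point.some.injEq] at this
    simp only [Set.mem_ofPred_eq, IsRoot.def, eval_sub, sub_eq_zero]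
    exact this.2.symm

end Fermat.Agent.S52.TOR.Zariski
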