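import Mathlib
import Fermat.Agent.S52.Defs
import Fermat.Agent.S52.SecDefs

/-!
# S52 / TOR : explicit coordinates of the level-5 structure `κ_u(a, b) = a • P(u) + b • Q(u)`

For `m = (a, b) ≠ 0` in `(ZMod 5)²` the point `a • P(u) + b • Q(u)` of
`E_u : y² = x³ + 27 kH(u1⁵,u2⁵) x + 54 kT(u1⁵,u2⁵)` is the affine point `(secX m z i5 u1 u2, secY m z i5 u1 u2)`
(`z` a primitive 5th root of unity, `i5 = 1/5`):
* `a = 0`: `b • Q = Q[z ↦ z^b]`;
* `a ≠ 0`, `j = b / a`: `a • P + b • Q = a • (P + j • Q) = (a • P)(z^(2j) u1, z^(3j) u2)`, and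
  `1 • P = (XP, YP)`, `2 • P = (X2P, Y2P)`, `3 • P = (X2P, -Y2P)`, `4 • P = (XP, -YP)`.
These are polynomial expressions (integer coefficients) in `z, i5, u1, u2`: they commute with ring
homomorphisms (`map_secX`, `map_secY`).
-/

set_option autoImplicit false

namespace Fermat.Agent.S52.TOR

open Fermat.Agent.S52

variable {R : Type*} [CommRing R]

/-- x-coordinate of `a • P(u) + b • Q(u)`, `m = (a, b) ≠ 0`. -/
def secX (m : ZMod 5 × ZMod 5) (z i5 u1 u2 : R) : R :=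
  if m.1 = 0 then i5 * secXQ5 (z ^ m.2.val) (u1 ^ 5) (u2 ^ 5)
  else if m.1 = 1 ∨ m.1 = 4 then
    secXP (z ^ (2 * (m.2 * m.1⁻¹).val) * u1) (z ^ (3 * (m.2 * m.1⁻¹).val) * u2)
  else secX2P (z ^ (2 * (m.2 * m.1⁻¹).val) * u1) (z ^ (3 * (m.2 * m.1⁻¹).val) * u2)

/-- y-coordinate of `a • P(u) + b • Q(u)`, `m = (a, b) ≠ 0`. -/
def secY (m : ZMod 5 × ZMod 5) (z i5 u1 u2 : R) : R :=
  if m.1 = 0 then i5 * secYQ5 (z ^ m.2.val) (u1 ^ 5) (u2 ^ 5)
  else if m.1 = 1 then
    secYP (z ^ (2 * (m.2 * m.1⁻¹).val) * u1) (z ^ (3 * (m.2 * m.1⁻¹).val) * u2)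
  else if m.1 = 2 then
    secY2P (z ^ (2 * (m.2 * m.1⁻¹).val) * u1) (z ^ (3 * (m.2 * m.1⁻¹).val) * u2)
  else if m.1 = 3 then
    -secY2P (z ^ (2 * (m.2 * m.1⁻¹).val) * u1) (z ^ (3 * (m.2 * m.1⁻¹).val) * u2)
  else -secYP (z ^ (2 * (m.2 * m.1⁻¹).val) * u1) (z ^ (3 * (m.2 * m.1⁻¹).val) * u2)

section map

variable {S : Type*} [CommRing S] (f : R →+* S)

lemma map_secXP (u1 u2 : R) : f (secXP u1 u2) = secXP (f u1) (f u2) := by
  simp only [secXP, map_add, map_sub, map_mul, map_pow, map_ofNat]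

lemma map_secYP (u1 u2 : R) : f (secYP u1 u2) = secYP (f u1) (f u2) := by
  simp only [secYP, map_add, map_sub, map_mul, map_pow, map_ofNat, map_neg]

lemma map_secX2P (u1 u2 : R) : f (secX2P u1 u2) = secX2P (f u1) (f u2) := by
  simp only [secX2P, map_add, map_sub, map_mul, map_pow, map_ofNat]

lemma map_secY2P (u1 u2 : R) : f (secY2P u1 u2) = secY2P (f u1) (f u2) := by
  simp only [secY2P, map_add, map_mul, map_pow, map_ofNat]

lemma map_secXQ5 (z p q : R) : f (secXQ5 z p q) = secXQ5 (f z) (f p) (f q) := by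
  simp only [secXQ5, map_add, map_sub, map_mul, map_pow, map_ofNat]

lemma map_secYQ5 (z p q : R) : f (secYQ5 z p q) = secYQ5 (f z) (f p) (f q) := by
  simp only [secYQ5, map_add, map_sub, map_mul, map_pow, map_ofNat, map_neg]

lemma map_secX (m : ZMod 5 × ZMod 5) (z i5 u1 u2 : R) :
    f (secX m z i5 u1 u2) = secX m (f z) (f i5) (f u1) (f u2) := by
  unfold secX
  split_ifs <;> simp only [map_mul, map_pow, map_secXP, map_secX2P, map_secXQ5]

lemma map_secY (m : ZMod 5 × ZMod 5) (z i5 u1 u2 : R) :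
    f (secY m z i5 u1 u2) = secY m (f z) (f i5) (f u1) (f u2) := by
  unfold secY
  split_ifs <;> simp only [map_mul, map_pow, map_neg, map_secYP, map_secY2P, map_secYQ5]

lemma map_kH (p q : R) : f (kH p q) = kH (f p) (f q) := by
  simp only [kH, map_add, map_sub, map_mul, map_pow, map_ofNat, map_neg]

lemma map_kT (p q : R) : f (kT p q) = kT (f p) (f q) := by
  simp only [kT, map_add, map_sub, map_mul, map_pow, map_ofNat]

lemma map_kf (u1 u2 : R) : f (kf u1 u2) = kf (f u1) (f u2) := by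
  simp only [kf, map_add, map_sub, map_mul, map_pow, map_ofNat]

lemma map_kw1 (u1 u2 : R) : f (kw1 u1 u2) = kw1 (f u1) (f u2) := by
  simp only [kw1, map_add, map_sub, map_mul, map_pow, map_ofNat]

lemma map_kw2 (u1 u2 : R) : f (kw2 u1 u2) = kw2 (f u1) (f u2) := by
  simp only [kw2, map_add, map_sub, map_mul, map_pow, map_ofNat, map_neg]

end map

end Fermat.Agent.S52.TOR
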